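import Fermat.Agent.Row24.Glue.Rig

/-!
# Rigidifications and pullback

Rigidifications and pullback: trivialisations of the pullback along `s` correspond to
rigidifications; transport along open immersions.
-/

set_option autoImplicit false

universe u

open CategoryTheory AlgebraicGeometry TopologicalSpace Opposite

noncomputable section

namespace Fermat.Agent.Row24.Glue

variable {X T : Scheme.{u}} (s : T ⟶ X) {M : X.Modules}

theorem IsoOn.coeff_add {V : X.Opens} (e : IsoOn V M (unitMod X)) (Z : X.Opens) (h : Z ≤ V)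
    (x y : Γ(M, Z)) : e.coeff Z h (x + y) = e.coeff Z h x + e.coeff Z h y :=
  map_add (e.hom.app Z h) x y

theorem IsoOn.coeff_smul {V : X.Opens} (e : IsoOn V M (unitMod X)) (Z : X.Opens) (h : Z ≤ V)
    (r : Γ(X, Z)) (x : Γ(M, Z)) : e.coeff Z h (r • x) = r * e.coeff Z h x :=
  e.hom.map_smul Z h r x

theorem IsoOn.coeff_res {V : X.Opens} (e : IsoOn V M (unitMod X)) {Z Z' : X.Opens} (h : Z ≤ V)
    (h' : Z' ≤ Z) (x : Γ(M, Z)) :
    e.coeff Z' (h'.trans h) (res M h' x) = resR h' (e.coeff Z h x) :=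
  e.hom.map_res Z Z' h h' x

/-- A function on the preimage as a section of the direct image of the structure sheaf. -/
def toSec' (V : X.Opens) (a : Γ(T, s ⁻¹ᵁ V)) : Γ(pushUnit s, V) := a

/-- The morphism adjunct to a trivialisation of the pullback. -/
def rigHom (e : (Scheme.Modules.pullback s).obj M ⟶ unitMod T) : M ⟶ pushUnit s :=
  (Scheme.Modules.pullbackPushforwardAdjunction s).homEquiv _ _ e

/-- The unit of the adjunction on sections. -/
def unitApp (M : X.Modules) (V : X.Opens) :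
    Γ(M, V) →+ Γ((Scheme.Modules.pullback s).obj M, s ⁻¹ᵁ V) :=
  (((Scheme.Modules.pullbackPushforwardAdjunction s).unit.app M).app V).hom

theorem unitApp_smul (V : X.Opens) (r : Γ(X, V)) (x : Γ(M, V)) :
    unitApp s M V (r • x) = appR s V r • unitApp s M V x :=
  Scheme.Modules.Hom.app_smul ((Scheme.Modules.pullbackPushforwardAdjunction s).unit.app M) r x

theorem unitApp_res {V V' : X.Opens} (h : V' ≤ V) (x : Γ(M, V)) :
    unitApp s M V' (res M h x) = res _ (preimage_mono' s h) (unitApp s M V x) :=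
  ConcreteCategory.congr_hom
    (((Scheme.Modules.pullbackPushforwardAdjunction s).unit.app M).mapPresheaf.naturality
      (homOfLE h).op) x

theorem homEquiv_app {N : T.Modules} (e : (Scheme.Modules.pullback s).obj M ⟶ N) (V : X.Opens)
    (x : Γ(M, V)) :
    ((Scheme.Modules.pullbackPushforwardAdjunction s).homEquiv _ _ e).app V x =
      e.app (s ⁻¹ᵁ V) (unitApp s M V x) := by
  rw [Adjunction.homEquiv_unit]
  rfl

theorem rigHom_val (e : (Scheme.Modules.pullback s).obj M ⟶ unitMod T) (V : X.Opens) (h : V ≤ ⊤)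
    (x : Γ(M, V)) :
    (HomOn.ofHom (rigHom s e) ⊤).val V h x = e.app (s ⁻¹ᵁ V) (unitApp s M V x) :=
  homEquiv_app s e V x

variable {s} in
/-- A trivialisation of the pullback gives a rigidification. -/
theorem isRig_rigHom (hM : IsInvOn ⊤ M) (e : (Scheme.Modules.pullback s).obj M ≅ unitMod T) :
    IsRig (HomOn.ofHom (rigHom s e.hom) ⊤) := by
  intro t _
  obtain ⟨V, htV, -, ⟨e0⟩⟩ := hM (s t) trivial
  refine ⟨V, le_top, e0.gen, htV, ?_⟩
  let O : T.Opens := s ⁻¹ᵁ V
  let N : T.Modules := (Scheme.Modules.pushforward O.ι).obj ((unitMod T).restrict O.ι)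
  have hle : ∀ Y : X.Opens, O.ι ''ᵁ O.ι ⁻¹ᵁ (s ⁻¹ᵁ Y) ≤ s ⁻¹ᵁ (Y ⊓ V) := fun Y t' ht' =>
    ⟨O.ι.image_preimage_le _ ht', O.ι_image_le _ ht'⟩
  have hN : ∀ (A : T.Opens) (r : Γ(T, A)),
      (O.ι.appIso (O.ι ⁻¹ᵁ A)).inv (O.ι.app A r) = resR (O.ι.image_preimage_le A) r := fun A r =>
    ConcreteCategory.congr_hom (O.ι.app_appIso_inv A) r
  let μ0 : HomOn ⊤ M ((Scheme.Modules.pushforward s).obj N) :=
    { app := fun Y _ => AddMonoidHom.mk'
        (fun σ => (show Γ((Scheme.Modules.pushforward s).obj N, Y) from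
          resR (hle Y) (appR s (Y ⊓ V)
            (e0.coeff (Y ⊓ V) inf_le_right (res M inf_le_left σ)))))
        (fun a b => by
          change resR (hle Y) (appR s (Y ⊓ V) (e0.coeff (Y ⊓ V) inf_le_right
              (res M inf_le_left (a + b)))) =
            resR (hle Y) (appR s (Y ⊓ V) (e0.coeff (Y ⊓ V) inf_le_right
              (res M inf_le_left a))) +
            resR (hle Y) (appR s (Y ⊓ V) (e0.coeff (Y ⊓ V) inf_le_right
              (res M inf_le_left b)))
          rw [map_add (res M _), e0.coeff_add, map_add, map_add])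
      map_smul := fun Y _ r σ => by
        change resR (hle Y) (appR s (Y ⊓ V) (e0.coeff (Y ⊓ V) inf_le_right
            (res M inf_le_left (r • σ)))) =
          (O.ι.appIso _).inv (O.ι.app (s ⁻¹ᵁ Y) (appR s Y r)) *
            resR (hle Y) (appR s (Y ⊓ V) (e0.coeff (Y ⊓ V) inf_le_right
              (res M inf_le_left σ)))
        rw [hN, res_smul, e0.coeff_smul, map_mul, map_mul, appR_resR, resR_resR]
      map_res := fun Y Z _ hZ σ => by
        change resR (hle Z) (appR s (Z ⊓ V) (e0.coeff (Z ⊓ V) inf_le_right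
            (res M inf_le_left (res M hZ σ)))) =
          resR (Scheme.Hom.image_mono O.ι fun _ h => hZ h)
            (resR (hle Y) (appR s (Y ⊓ V) (e0.coeff (Y ⊓ V) inf_le_right
              (res M inf_le_left σ))))
        have h2 := e0.coeff_res (inf_le_right : Y ⊓ V ≤ V) (inf_le_inf_right V hZ)
          (res M inf_le_left σ)
        rw [res_res] at h2
        rw [res_res, h2, appR_resR, resR_resR, resR_resR] }
  let μ : M ⟶ (Scheme.Modules.pushforward s).obj N := μ0.toHom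
  let μ' : (Scheme.Modules.pullback s).obj M ⟶ N :=
    ((Scheme.Modules.pullbackPushforwardAdjunction s).homEquiv _ _).symm μ
  let h' : unitMod T ⟶ N := e.inv ≫ μ'
  let f : Γ(T, O) := e.hom.app O (unitApp s M V e0.gen)
  suffices hf : IsUnit f by rwa [rigHom_val]
  have h1 : h'.app O (toSec f) = μ.app V e0.gen := by
    change μ'.app O ((e.hom.app O ≫ e.inv.app O) (unitApp s M V e0.gen)) = _
    rw [← Scheme.Modules.Hom.comp_app, e.hom_inv_id]
    have h2 := (homEquiv_app s μ' V e0.gen).symm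
    rw [Equiv.apply_symm_apply] at h2
    exact h2
  let B : T.Opens := O.ι ''ᵁ O.ι ⁻¹ᵁ O
  let g : Γ(T, B) := h'.app O (toSec 1)
  have h3 : h'.app O (toSec f) = (resR (O.ι.image_preimage_le O) f * g : Γ(T, B)) := by
    have hsm : toSec f = f • toSec (1 : Γ(T, O)) := by
      change f = f * 1
      rw [mul_one]
    rw [hsm]
    refine (Scheme.Modules.Hom.app_smul h' f (toSec 1)).trans ?_
    rw [← hN O f]
    rfl
  have h4 : (show Γ(T, B) from μ.app V e0.gen) = 1 := by
    change resR (hle V) (appR s (V ⊓ V) (e0.coeff (V ⊓ V) inf_le_right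
      (res M inf_le_left e0.gen))) = 1
    have h5 : e0.coeff (V ⊓ V) inf_le_right (res M inf_le_left e0.gen) = 1 := by
      have h6 := e0.coeff_smul_gen (V ⊓ V) inf_le_right 1
      rwa [one_smul] at h6
    rw [h5, map_one, map_one]
  have h7 : resR (O.ι.image_preimage_le O) f * g = 1 := (h3.symm.trans h1).trans h4
  have hB : O ≤ B := le_image_preimage O.ι (by rw [Scheme.Opens.opensRange_ι])
  have h8 := (IsUnit.of_mul_eq_one g h7).map (resR hB)
  rwa [resR_resR, resR_self] at h8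

variable {s} in
/-- A rigidification trivialises the pullback. -/
theorem nonempty_pullback_iso (hM : IsInvOn ⊤ M) (ρ : HomOn ⊤ M (pushUnit s)) (hρ : IsRig ρ) :
    Nonempty ((Scheme.Modules.pullback s).obj M ≅ unitMod T) := by
  obtain ⟨κ, Y, hY, hcov, he⟩ := hM.exists_cover
  let e := fun a => (he a).some
  have hf : ∀ a, IsUnit (ρ.val (Y a) (hY a) (e a).gen) := fun a =>
    hρ.isUnit_val_gen (hY a) (e a)
  let P := (Scheme.Modules.pullback s).obj M
  let E : ∀ a, Γ(P, s ⁻¹ᵁ Y a) := fun a =>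
    ((hf a).unit⁻¹ : Γ(T, s ⁻¹ᵁ Y a)ˣ).1 • unitApp s M (Y a) (e a).gen
  have hE : ∀ a V (h : V ≤ Y a) (x : Γ(M, V)),
      unitApp s M V x = ρ.val V le_top x • res P (preimage_mono' s h) (E a) := by
    intro a V h x
    rw [(e a).eq_coeff_smul V h x, unitApp_smul, ρ.val_smul, ρ.val_res (hY a) h, res_smul,
      unitApp_res s h, mul_smul, smul_smul (resR _ _), ← map_mul, IsUnit.mul_val_inv, map_one,
      one_smul]
  obtain ⟨E₀, hE₀⟩ := exists_glue P (fun a => s ⁻¹ᵁ Y a) (V := ⊤) (fun a => le_top)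
    (fun t ht => by
      obtain ⟨a, ha⟩ := Opens.mem_iSup.mp (hcov (show s t ∈ (⊤ : X.Opens) from trivial))
      exact Opens.mem_iSup.mpr ⟨a, ha⟩) E fun a b Z ha hb => by
    have hle : Z ≤ s ⁻¹ᵁ (Y a ⊓ Y b) := fun t ht => ⟨ha ht, hb ht⟩
    have h1 := ((hE a (Y a ⊓ Y b) inf_le_left (res M inf_le_left (e a).gen)).symm.trans
      (hE b (Y a ⊓ Y b) inf_le_right (res M inf_le_left (e a).gen)))
    rw [ρ.val_res (hY a)] at h1
    have h2 := ((hf a).map (resR (preimage_mono' s inf_le_left))).smul_left_cancel.mp h1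
    have h3 := congrArg (res P hle) h2
    rwa [res_res, res_res] at h3
  let k0 : HomOn ⊤ (unitMod T) P :=
    { app := fun V h => AddMonoidHom.mk'
        (fun r => (show Γ(T, V) from r) • res P h E₀) fun a b => add_smul _ _ _
      map_smul := fun V h r x => mul_smul r (show Γ(T, V) from x) _
      map_res := fun V Z hV hZ x => by
        change resR hZ (show Γ(T, V) from x) • res P (hZ.trans hV) E₀ =
          res P hZ ((show Γ(T, V) from x) • res P hV E₀)
        rw [res_smul, res_res] }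
  let adj := Scheme.Modules.pullbackPushforwardAdjunction s
  let β : P ⟶ unitMod T := (adj.homEquiv _ _).symm ρ.toHom
  have hβ : ∀ V (x : Γ(M, V)), β.app (s ⁻¹ᵁ V) (unitApp s M V x) =
      toSec (ρ.val V le_top x) := by
    intro V x
    rw [← homEquiv_app, Equiv.apply_symm_apply]
    rfl
  have hβE : β.app ⊤ E₀ = toSec (1 : Γ(T, ⊤)) := by
    refine ext_local (unitMod T) (fun a => s ⁻¹ᵁ Y a) (fun a => le_top)
      (fun t ht => by
        obtain ⟨a, ha⟩ := Opens.mem_iSup.mp (hcov (show s t ∈ (⊤ : X.Opens) from trivial))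
        exact Opens.mem_iSup.mpr ⟨a, ha⟩) fun a => ?_
    rw [← HomOn.ofHom_app β ⊤ ⊤ le_rfl, ← (HomOn.ofHom β ⊤).map_res ⊤ _ le_rfl le_top, hE₀ a,
      HomOn.ofHom_app, Scheme.Modules.Hom.app_smul, hβ]
    change ((hf a).unit⁻¹ : Γ(T, s ⁻¹ᵁ Y a)ˣ).1 * ρ.val (Y a) le_top (e a).gen = resR le_top 1
    rw [map_one]
    exact (hf a).val_inv_mul
  have hkβ : k0.toHom ≫ β = 𝟙 (unitMod T) := by
    refine Scheme.Modules.hom_ext _ _ fun V => ?_
    ext r
    change β.app V ((show Γ(T, V) from r) • res P le_top E₀) = r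
    rw [Scheme.Modules.Hom.app_smul, ← HomOn.ofHom_app β ⊤ V le_top,
      (HomOn.ofHom β ⊤).map_res ⊤ V le_rfl le_top, HomOn.ofHom_app, hβE]
    have h1 : (show Γ(T, V) from r) * resR le_top 1 = (show Γ(T, V) from r) := by
      rw [map_one, mul_one]
    exact h1
  have hβk : β ≫ k0.toHom = 𝟙 P := by
    apply (adj.homEquiv _ _).injective
    refine Scheme.Modules.hom_ext _ _ fun V => ?_
    ext x
    rw [homEquiv_app, homEquiv_app]
    change (show Γ(T, s ⁻¹ᵁ V) from β.app (s ⁻¹ᵁ V) (unitApp s M V x)) • res P le_top E₀ =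
      unitApp s M V x
    rw [hβ]
    change ρ.val V le_top x • res P le_top E₀ = unitApp s M V x
    refine ext_local P (fun a => s ⁻¹ᵁ (V ⊓ Y a)) (fun a => preimage_mono' s inf_le_left)
      (fun t ht => by
        obtain ⟨a, ha⟩ := Opens.mem_iSup.mp (hcov (show s t ∈ (⊤ : X.Opens) from trivial))
        exact Opens.mem_iSup.mpr ⟨a, ht, ha⟩) fun a => ?_
    rw [res_smul, res_res, ← ρ.val_res le_top inf_le_left, ← unitApp_res s inf_le_left,
      hE a (V ⊓ Y a) inf_le_right, ← hE₀ a, res_res]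
  exact ⟨⟨β, k0.toHom, hβk, hkβ⟩⟩

theorem appLE_congr_hom {Y Z : Scheme.{u}} {f g : Y ⟶ Z} (h : f = g) (V : Z.Opens) (A : Y.Opens)
    (hA : A ≤ f ⁻¹ᵁ V) : f.appLE V A hA = g.appLE V A (h ▸ hA) := by
  subst h
  rfl

variable {s} in
/-- Transport of a rigidification along open immersions. -/
theorem exists_rig_pushforward {X' T' : Scheme.{u}} (j : X' ⟶ X) [IsOpenImmersion j] (k : T' ⟶ T)
    [IsOpenImmersion k] (s' : T' ⟶ X') (sq : s' ≫ j = k ≫ s) (U : X.Opens)
    (hs : s ⁻¹ᵁ U ≤ k.opensRange) {M' : X'.Modules} (ρ' : HomOn ⊤ M' (pushUnit s'))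
    (hρ' : IsRig ρ') :
    ∃ ρ : HomOn U ((Scheme.Modules.pushforward j).obj M') (pushUnit s), IsRig ρ := by
  have hpt : ∀ t' : T', j (s' t') = s (k t') := fun t' => by
    rw [← Scheme.Hom.comp_apply, sq, Scheme.Hom.comp_apply]
  have hcov : ∀ V : X.Opens, V ≤ U → s ⁻¹ᵁ V ≤ k ''ᵁ (s' ⁻¹ᵁ (j ⁻¹ᵁ V)) := by
    intro V hV t ht
    obtain ⟨t', rfl⟩ := hs (preimage_mono' s hV ht)
    exact ⟨t', show j (s' t') ∈ V by rw [hpt]; exact ht, rfl⟩
  let tr : ∀ A : T'.Opens, Γ(T', A) →+* Γ(T, k ''ᵁ A) := fun A => (k.appIso A).inv.hom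
  have htr : ∀ {A A' : T'.Opens} (h : A' ≤ A) (v : Γ(T', A)),
      tr A' (resR h v) = resR (Scheme.Hom.image_mono k h) (tr A v) := fun h v =>
    ConcreteCategory.congr_hom (k.appIso_inv_naturality (homOfLE h).op) v
  have hscal : ∀ (V : X.Opens) (hV : V ≤ U) (r : Γ(X, V)),
      resR (hcov V hV) (tr _ (appR s' _ (appR j V r))) = appR s V r := by
    intro V hV r
    have hA : s' ⁻¹ᵁ (j ⁻¹ᵁ V) ≤ k ⁻¹ᵁ (s ⁻¹ᵁ V) := fun t' ht => by
      change s (k t') ∈ V
      rw [← hpt]
      exact ht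
    have h1 : j.app V ≫ s'.app (j ⁻¹ᵁ V) =
        s.app V ≫ k.appLE (s ⁻¹ᵁ V) (s' ⁻¹ᵁ (j ⁻¹ᵁ V)) hA := by
      rw [← Scheme.Hom.comp_app, Scheme.Hom.app_eq_appLE, appLE_congr_hom sq,
        Scheme.Hom.comp_appLE]
      rfl
    have h2 : appR s' _ (appR j V r) =
        k.appLE (s ⁻¹ᵁ V) (s' ⁻¹ᵁ (j ⁻¹ᵁ V)) hA (appR s V r) :=
      ConcreteCategory.congr_hom h1 r
    rw [h2]
    have h3 := ConcreteCategory.congr_hom (k.appLE_appIso_inv hA) (appR s V r)
    erw [h3]
    change resR _ (resR _ _) = _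
    rw [resR_resR, resR_self]
  refine ⟨
    { app := fun V hV => AddMonoidHom.mk'
        (fun x => toSec' s V (resR (hcov V hV) (tr _ (ρ'.val (j ⁻¹ᵁ V) le_top x))))
        fun a b => by
          change resR (hcov V hV) (tr _ (ρ'.val (j ⁻¹ᵁ V) le_top
              ((show Γ(M', j ⁻¹ᵁ V) from a) + (show Γ(M', j ⁻¹ᵁ V) from b)))) =
            resR (hcov V hV) (tr _ (ρ'.val (j ⁻¹ᵁ V) le_top a)) +
              resR (hcov V hV) (tr _ (ρ'.val (j ⁻¹ᵁ V) le_top b))
          rw [map_add, map_add, map_add]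
      map_smul := fun V hV r x => by
        change resR (hcov V hV) (tr _ (ρ'.val (j ⁻¹ᵁ V) le_top
            (appR j V r • (show Γ(M', j ⁻¹ᵁ V) from x)))) =
          appR s V r * resR (hcov V hV) (tr _ (ρ'.val (j ⁻¹ᵁ V) le_top x))
        rw [ρ'.val_smul, map_mul, map_mul, hscal V hV]
      map_res := fun V Z hV hZ x => by
        change resR (hcov Z (hZ.trans hV)) (tr _ (ρ'.val (j ⁻¹ᵁ Z) le_top
            (res M' (preimage_mono' j hZ) (show Γ(M', j ⁻¹ᵁ V) from x)))) =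
          resR (preimage_mono' s hZ) (resR (hcov V hV) (tr _ (ρ'.val (j ⁻¹ᵁ V) le_top x)))
        rw [ρ'.val_res le_top, htr, resR_resR, resR_resR] }, ?_⟩
  intro t ht
  obtain ⟨t', rfl⟩ := hs ht
  obtain ⟨Y', hY', x', htY, hx'⟩ := hρ' t' trivial
  have hle : j ⁻¹ᵁ (j ''ᵁ Y' ⊓ U) ≤ Y' := fun y hy => by
    obtain ⟨y', hy', he⟩ := hy.1
    rwa [← j.isOpenEmbedding.injective he]
  refine ⟨j ''ᵁ Y' ⊓ U, inf_le_right, res M' hle x',
    ⟨⟨s' t', htY, hpt t'⟩, ht⟩, ?_⟩
  change IsUnit (resR (hcov _ inf_le_right) (tr _ (ρ'.val _ le_top (res M' hle x'))))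
  rw [ρ'.val_res le_top]
  refine IsUnit.map _ (IsUnit.map _ (IsUnit.map _ ?_))
  exact hx'

end Fermat.Agent.Row24.Glue
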