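import Fermat.Agent.Row24.Glue.Objects
import Fermat.Agent.Row24.Glue.Pull

/-!
# Rigidified line bundles form a Zariski sheaf

Rigidified line bundles form a Zariski sheaf when the functions on `C ×_S T` are those of `T`.
-/

set_option autoImplicit false

universe u

open CategoryTheory CategoryTheory.Limits AlgebraicGeometry TopologicalSpace Opposite
open NeronModelInfra AlgebraicGeometry.RelPicard

noncomputable section

namespace Fermat.Agent.Row24.Glue

variable {R : Type u} [CommRing R] {C : Scheme.{u}} {c : C ⟶ Spec (CommRingCat.of R)}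
  {ε : SchemeHomOver (𝟙 (Spec (CommRingCat.of R))) c}

/-- The inclusion of an open subscheme, over the base. -/
def openOver {T : Scheme.{u}} (t : T ⟶ Spec (CommRingCat.of R)) (U : T.Opens) :
    SchemeHomOver (U.ι ≫ t) t :=
  ⟨U.ι, rfl⟩

/-- An inclusion of open subschemes, over the base. -/
def openHomOver {T : Scheme.{u}} (t : T ⟶ Spec (CommRingCat.of R)) {U V : T.Opens} (h : V ≤ U) :
    SchemeHomOver (V.ι ≫ t) (U.ι ≫ t) :=
  ⟨T.homOfLE h, by rw [← Category.assoc, Scheme.homOfLE_ι]⟩

instance isOpenImmersion_openOver {T : Scheme.{u}} (t : T ⟶ Spec (CommRingCat.of R))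
    (U : T.Opens) : IsOpenImmersion (openOver t U).1 :=
  inferInstanceAs (IsOpenImmersion U.ι)

instance isOpenImmersion_openHomOver {T : Scheme.{u}} (t : T ⟶ Spec (CommRingCat.of R))
    {U V : T.Opens} (h : V ≤ U) : IsOpenImmersion (openHomOver t h).1 :=
  inferInstanceAs (IsOpenImmersion (T.homOfLE h))

instance isOpenImmersion_baseChangeSnd {T T' : Scheme.{u}} {t : T ⟶ Spec (CommRingCat.of R)}
    {t' : T' ⟶ Spec (CommRingCat.of R)} (ψ : SchemeHomOver t' t) [IsOpenImmersion ψ.1] :
    IsOpenImmersion (baseChangeSnd c ψ) := by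
  unfold baseChangeSnd
  infer_instance

theorem opensRange_baseChangeSnd {T T' : Scheme.{u}} {t : T ⟶ Spec (CommRingCat.of R)}
    {t' : T' ⟶ Spec (CommRingCat.of R)} (ψ : SchemeHomOver t' t) [IsOpenImmersion ψ.1] :
    (baseChangeSnd c ψ).opensRange = pullback.snd c t ⁻¹ᵁ ψ.1.opensRange := by
  apply Opens.ext
  change Set.range (baseChangeSnd c ψ) = _
  unfold baseChangeSnd
  rw [Scheme.Pullback.range_map]
  simp

theorem opensRange_baseChangeSnd_openOver {T : Scheme.{u}} (t : T ⟶ Spec (CommRingCat.of R))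
    (U : T.Opens) :
    (baseChangeSnd c (openOver t U)).opensRange = pullback.snd c t ⁻¹ᵁ U := by
  rw [opensRange_baseChangeSnd]
  congr 1
  exact U.opensRange_ι

theorem IsRig.mono {X T : Scheme.{u}} {s : T ⟶ X} {W W' : X.Opens} {P : X.Modules}
    {ρ : HomOn W P (pushUnit s)} (hρ : IsRig ρ) (h : W' ≤ W) : IsRig (ρ.mono h) := by
  intro t ht
  obtain ⟨Y, hY, x, htY, hx⟩ := hρ t (h ht)
  refine ⟨Y ⊓ W', inf_le_right, res P inf_le_left x, ⟨htY, ht⟩, ?_⟩
  change IsUnit (ρ.val (Y ⊓ W') (inf_le_left.trans hY) (res P inf_le_left x))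
  rw [ρ.val_res hY inf_le_left]
  exact hx.map _

theorem bijective_appR {X T : Scheme.{u}} {s : T ⟶ X} {q : X ⟶ T} (hsq : s ≫ q = 𝟙 T)
    (hq : ∀ V : T.Opens, Function.Bijective (q.app V)) (V : T.Opens) :
    Function.Bijective (appR s (q ⁻¹ᵁ V)) := by
  have : IsIso (s ≫ q) := by rw [hsq]; infer_instance
  have h1 : Function.Bijective ((s ≫ q).app V) := ConcreteCategory.bijective_of_isIso _
  rw [Scheme.Hom.comp_app] at h1
  exact (Function.Bijective.of_comp_iff (appR s (q ⁻¹ᵁ V)) (hq V)).mp h1

section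

variable {T : Scheme.{u}} {t : T ⟶ Spec (CommRingCat.of R)}

theorem bijective_appR_rigSection (hq : ∀ V : T.Opens, Function.Bijective ((pullback.snd c t).app V))
    (V : T.Opens) : Function.Bijective (appR (rigSection c t ε) (pullback.snd c t ⁻¹ᵁ V)) :=
  bijective_appR (pullback.lift_snd _ _ _) hq V

theorem top_le_iSup_preimage {ι : Type u} {U : ι → T.Opens} (hU : iSup U = ⊤) :
    (⊤ : (pullback c t).Opens) ≤ ⨆ i, pullback.snd c t ⁻¹ᵁ U i := fun x _ => by
  obtain ⟨i, hi⟩ := Opens.mem_iSup.mp
    (show pullback.snd c t x ∈ iSup U by rw [hU]; trivial)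
  exact Opens.mem_iSup.mpr ⟨i, hi⟩

/-- Rigidified line bundles isomorphic on an open cover are isomorphic. -/
theorem classes_ext (hq : ∀ V : T.Opens, Function.Bijective ((pullback.snd c t).app V))
    {ι : Type u} (U : ι → T.Opens) (hU : iSup U = ⊤) (M M' : RigidifiedLineBundle c ε t)
    (h : ∀ i, Nonempty ((M.pullbackAlong (openOver t (U i))).L ≅
      (M'.pullbackAlong (openOver t (U i))).L)) :
    Nonempty (M.L ≅ M'.L) := by
  let s := rigSection c t ε
  let W : ι → (pullback c t).Opens := fun i => pullback.snd c t ⁻¹ᵁ U i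
  let j := fun i => baseChangeSnd c (openOver t (U i))
  let ρ : HomOn ⊤ M.L (pushUnit s) := HomOn.ofHom (rigHom s M.rigidified.some.hom) ⊤
  have hρ : IsRig ρ := isRig_rigHom (isInvOn_of_isInvertible M.isInvertible _) M.rigidified.some
  let σ : HomOn ⊤ M'.L (pushUnit s) := HomOn.ofHom (rigHom s M'.rigidified.some.hom) ⊤
  have hσ : IsRig σ := isRig_rigHom (isInvOn_of_isInvertible M'.isInvertible _) M'.rigidified.some
  have hφ : ∀ i, ∃ φ : IsoOn (W i) M.L M'.L, ∀ V (hV : V ≤ W i) (x : Γ(M.L, V)),
      σ.val V le_top (φ.hom.app V hV x) = ρ.val V le_top x := fun i => by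
    obtain ⟨e⟩ := h i
    let e' : M.L.restrict (j i) ≅ M'.L.restrict (j i) :=
      (Scheme.Modules.restrictFunctorIsoPullback (j i)).app M.L ≪≫ e ≪≫
        ((Scheme.Modules.restrictFunctorIsoPullback (j i)).app M'.L).symm
    exact exists_normalised (bijective_appR_rigSection hq (U i))
      (isInvOn_of_isInvertible M.isInvertible _) (hρ.mono le_top) (hσ.mono le_top)
      (IsoOn.ofRestrict (j i) e' (opensRange_baseChangeSnd_openOver t (U i)).ge)
  choose φ hφ using hφ
  obtain ⟨F⟩ := IsoOn.exists_glue W (U := ⊤) (top_le_iSup_preimage hU) φ fun a b V ha hb x =>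
    normalised_unique (s := s) (W := W a ⊓ W b)
      (bijective_appR_rigSection hq (U a ⊓ U b))
      (isInvOn_of_isInvertible M.isInvertible _) (hρ.mono le_top)
      (σ := σ.mono le_top) ((φ a).mono inf_le_left) ((φ b).mono inf_le_right)
      (fun Z hZ y => hφ a Z (hZ.trans inf_le_left) y)
      (fun Z hZ y => hφ b Z (hZ.trans inf_le_right) y) V (le_inf ha hb) x
  exact ⟨F.toIso⟩

/-- Compatible rigidified line bundles on an open cover glue. -/
theorem classes_glue (hq : ∀ V : T.Opens, Function.Bijective ((pullback.snd c t).app V))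
    {ι : Type u} (U : ι → T.Opens) (hU : iSup U = ⊤)
    (M : ∀ i, RigidifiedLineBundle c ε ((U i).ι ≫ t))
    (h : ∀ a b, Nonempty
      (((M a).pullbackAlong (openHomOver t (inf_le_left : U a ⊓ U b ≤ U a))).L ≅
        ((M b).pullbackAlong (openHomOver t (inf_le_right : U a ⊓ U b ≤ U b))).L)) :
    ∃ M₀ : RigidifiedLineBundle c ε t, ∀ i,
      Nonempty ((M₀.pullbackAlong (openOver t (U i))).L ≅ (M i).L) := by
  let s := rigSection c t ε
  let W : ι → (pullback c t).Opens := fun i => pullback.snd c t ⁻¹ᵁ U i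
  let j := fun i => baseChangeSnd c (openOver t (U i))
  let P : ι → (pullback c t).Modules := fun i => (Scheme.Modules.pushforward (j i)).obj (M i).L
  let counit : ∀ i, (P i).restrict (j i) ≅ (M i).L := fun i =>
    (asIso (Scheme.Modules.restrictAdjunction (j i)).counit).app (M i).L
  have hrange : ∀ i, (j i).opensRange = W i := fun i =>
    opensRange_baseChangeSnd_openOver t (U i)
  -- invertibility
  have hP : ∀ i, IsInvOn (W i) (P i) := by
    intro i x hx
    rw [← hrange i] at hx
    obtain ⟨y, rfl⟩ := hx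
    obtain ⟨V, hyV, ⟨e⟩⟩ := (M i).isInvertible.exists_trivialization y
    refine ⟨(j i) ''ᵁ V, ⟨y, hyV, rfl⟩, ?_, ⟨IsoOn.ofRestrict (V.ι ≫ j i)
      ((Scheme.Modules.restrictFunctorComp V.ι (j i)).app (P i) ≪≫
        (Scheme.Modules.restrictFunctor V.ι).mapIso (counit i) ≪≫
        (Scheme.Modules.restrictFunctorIsoPullback V.ι).app (M i).L ≪≫ e ≪≫
        (Scheme.Modules.restrictUnitIso (V.ι ≫ j i)).symm) ?_⟩⟩
    · rw [← hrange i]
      exact (j i).image_le_opensRange V
    · rw [Scheme.Hom.opensRange_comp, Scheme.Opens.opensRange_ι]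
  -- rigidifications
  have hρ : ∀ i, ∃ ρ : HomOn (W i) (P i) (pushUnit s), IsRig ρ := by
    intro i
    refine exists_rig_pushforward (s := s) (j i) (U i).ι (rigSection c ((U i).ι ≫ t) ε)
      (rigSection_baseChangeSnd c ε (openOver t (U i))) (W i) ?_
      (HomOn.ofHom (rigHom _ (M i).rigidified.some.hom) ⊤)
      (isRig_rigHom (isInvOn_of_isInvertible (M i).isInvertible _) (M i).rigidified.some)
    intro y hy
    rw [Scheme.Opens.opensRange_ι]
    have h1 : pullback.snd c t (s y) = y := by
      rw [← Scheme.Hom.comp_apply, show s ≫ pullback.snd c t = 𝟙 T from pullback.lift_snd _ _ _]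
      rfl
    exact h1 ▸ hy
  choose ρ hρ using hρ
  -- transition isomorphisms
  have hφ : ∀ a b, ∃ φ : IsoOn (W a ⊓ W b) (P a) (P b),
      ∀ V (hV : V ≤ W a ⊓ W b) (x : Γ(P a, V)),
        (ρ b).val V (hV.trans inf_le_right) (φ.hom.app V hV x) =
          (ρ a).val V (hV.trans inf_le_left) x := by
    intro a b
    obtain ⟨e⟩ := h a b
    let l := baseChangeSnd c (openHomOver t (inf_le_left : U a ⊓ U b ≤ U a))
    let r := baseChangeSnd c (openHomOver t (inf_le_right : U a ⊓ U b ≤ U b))
    let jab := baseChangeSnd c (openOver t (U a ⊓ U b))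
    have hl : jab = l ≫ j a := by
      simp only [jab, l, j, baseChangeSnd_comp]
      congr 1
      exact Subtype.ext (Scheme.homOfLE_ι T inf_le_left).symm
    have hr : jab = r ≫ j b := by
      simp only [jab, r, j, baseChangeSnd_comp]
      congr 1
      exact Subtype.ext (Scheme.homOfLE_ι T inf_le_right).symm
    let ea : (P a).restrict jab ≅ (Scheme.Modules.pullback l).obj (M a).L :=
      (Scheme.Modules.restrictFunctorCongr hl).app (P a) ≪≫
        (Scheme.Modules.restrictFunctorComp l (j a)).app (P a) ≪≫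
        (Scheme.Modules.restrictFunctor l).mapIso (counit a) ≪≫
        (Scheme.Modules.restrictFunctorIsoPullback l).app (M a).L
    let eb : (P b).restrict jab ≅ (Scheme.Modules.pullback r).obj (M b).L :=
      (Scheme.Modules.restrictFunctorCongr hr).app (P b) ≪≫
        (Scheme.Modules.restrictFunctorComp r (j b)).app (P b) ≪≫
        (Scheme.Modules.restrictFunctor r).mapIso (counit b) ≪≫
        (Scheme.Modules.restrictFunctorIsoPullback r).app (M b).L
    exact exists_normalised (W := W a ⊓ W b) (bijective_appR_rigSection hq (U a ⊓ U b))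
      ((hP a).mono inf_le_left) ((hρ a).mono inf_le_left) ((hρ b).mono inf_le_right)
      (IsoOn.ofRestrict jab (ea ≪≫ e ≪≫ eb.symm)
        (opensRange_baseChangeSnd_openOver t (U a ⊓ U b)).ge)
  choose φ hφ using hφ
  let D : Datum (pullback c t) :=
    { ι := ι
      W := W
      P := P
      φ := fun a b => (φ a b).hom
      self := fun a V hV x =>
        normalised_unique (s := s) (W := W a ⊓ W a) (bijective_appR_rigSection hq (U a ⊓ U a))
          ((hP a).mono inf_le_left) ((hρ a).mono inf_le_left) (σ := (ρ a).mono inf_le_right)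
          (φ a a) (IsoOn.refl _ _) (hφ a a) (fun Z hZ y => rfl) V (le_inf hV hV) x
      cocycle := fun a b d V ha hb hd x =>
        normalised_unique (s := s) (W := W a ⊓ W b ⊓ W d)
          (bijective_appR_rigSection hq (U a ⊓ U b ⊓ U d))
          ((hP a).mono (inf_le_left.trans inf_le_left))
          ((hρ a).mono (inf_le_left.trans inf_le_left)) (σ := (ρ d).mono inf_le_right)
          (((φ a b).mono inf_le_left).trans
            ((φ b d).mono (le_inf (inf_le_left.trans inf_le_right) inf_le_right)))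
          ((φ a d).mono (le_inf (inf_le_left.trans inf_le_left) inf_le_right))
          (fun Z hZ y => (hφ b d Z _ _).trans (hφ a b Z _ y))
          (fun Z hZ y => hφ a d Z _ y) V (le_inf (le_inf ha hb) hd) x }
  have hcov : (⊤ : (pullback c t).Opens) ≤ ⨆ i, W i := top_le_iSup_preimage hU
  obtain ⟨σ, hσ⟩ := HomOn.exists_glue W hcov (fun i => (D.proj i).comp (ρ i))
    fun a b V ha hb x => by
      change (ρ a).val V ha ((D.proj a).app V ha x) = (ρ b).val V hb ((D.proj b).app V hb x)
      rw [← D.proj_compat a b V ha hb x]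
      exact (hφ a b V (le_inf ha hb) _).symm
  have hG : IsInvOn ⊤ D.glued := fun x hx => by
    obtain ⟨i, hi⟩ := Opens.mem_iSup.mp (hcov hx)
    obtain ⟨V, hxV, hV, he⟩ := (hP i).of_isoOn (D.gluedIso i) x hi
    exact ⟨V, hxV, le_top, he⟩
  have hσrig : IsRig σ := fun y _ => by
    obtain ⟨i, hi⟩ := Opens.mem_iSup.mp (hcov (show s y ∈ (⊤ : (pullback c t).Opens) from trivial))
    obtain ⟨Y, hY, x, hyY, hx⟩ := hρ i y hi
    refine ⟨Y, le_top, (D.gluedIso i).inv.app Y hY x, hyY, ?_⟩
    have h1 : σ.val Y le_top ((D.gluedIso i).inv.app Y hY x) =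
        (ρ i).val Y hY ((D.gluedIso i).hom.app Y hY ((D.gluedIso i).inv.app Y hY x)) :=
      hσ i Y le_top hY _
    rw [h1, (D.gluedIso i).inv_hom]
    exact hx
  refine ⟨⟨D.glued, isInvertible_of_isInvOn hG, nonempty_pullback_iso hG σ hσrig⟩, fun i => ⟨?_⟩⟩
  exact ((Scheme.Modules.restrictFunctorIsoPullback (j i)).app D.glued).symm ≪≫
    (D.gluedIso i).restrictMap (j i)
      (fun V => ((j i).image_le_opensRange V).trans (hrange i).le) ≪≫ counit i

/-- Classes that agree on an open cover are equal. -/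
theorem classesMap_ext (hq : ∀ V : T.Opens, Function.Bijective ((pullback.snd c t).app V))
    {ι : Type u} (U : ι → T.Opens) (hU : iSup U = ⊤)
    (x y : RigidifiedLineBundle.Classes c ε t)
    (h : ∀ i, RigidifiedLineBundle.classesMap (openOver t (U i)) x =
      RigidifiedLineBundle.classesMap (openOver t (U i)) y) : x = y := by
  induction x using Quotient.ind with | _ M =>
  induction y using Quotient.ind with | _ M' =>
  exact Quotient.sound (classes_ext hq U hU M M' fun i => Quotient.exact (h i))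

/-- Compatible classes on an open cover glue uniquely. -/
theorem existsUnique_classes_glue
    (hq : ∀ V : T.Opens, Function.Bijective ((pullback.snd c t).app V))
    {ι : Type u} (U : ι → T.Opens) (hU : iSup U = ⊤)
    (x : ∀ i, RigidifiedLineBundle.Classes c ε ((U i).ι ≫ t))
    (h : ∀ a b, RigidifiedLineBundle.classesMap
        (openHomOver t (inf_le_left : U a ⊓ U b ≤ U a)) (x a) =
      RigidifiedLineBundle.classesMap (openHomOver t (inf_le_right : U a ⊓ U b ≤ U b)) (x b)) :
    ∃! y : RigidifiedLineBundle.Classes c ε t,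
      ∀ i, RigidifiedLineBundle.classesMap (openOver t (U i)) y = x i := by
  choose M hM using fun i => Quotient.exists_rep (x i)
  obtain ⟨M₀, hM₀⟩ := classes_glue hq U hU M fun a b =>
    Quotient.exact (show RigidifiedLineBundle.classesMap _ (Quotient.mk _ (M a)) =
      RigidifiedLineBundle.classesMap _ (Quotient.mk _ (M b)) by rw [hM, hM]; exact h a b)
  have hy : ∀ i, RigidifiedLineBundle.classesMap (openOver t (U i)) (Quotient.mk _ M₀) = x i :=
    fun i => (Quotient.sound (hM₀ i)).trans (hM i)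
  exact ⟨Quotient.mk _ M₀, hy,
    fun y h' => classesMap_ext hq U hU y _ fun i => (h' i).trans (hy i).symm⟩

end

end Fermat.Agent.Row24.Glue
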