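import Fermat.Agent.Row24.Glue.Rig
import Fermat.Agent.Row24.Dict.Localize

/-!
# Modules invertible on an affine open

For `U` affine, morphisms over `U` out of a module invertible on `U` are the linear maps of sections
over `U`, and sections over a basic open are fractions.
-/

set_option autoImplicit false

universe u

open CategoryTheory AlgebraicGeometry TopologicalSpace Opposite

noncomputable section

namespace Fermat.Agent.Row24.Glue

variable {X : Scheme.{u}}

/-- Restriction into an open subset on which a module is invertible gives an invertible module. -/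
theorem isInvertible_restrict_of_isInvOn {U : X.Opens} {M : X.Modules} (hM : IsInvOn U M)
    {Y : Scheme.{u}} (f : Y ⟶ X) [IsOpenImmersion f] (h : f.opensRange ≤ U) :
    Scheme.Modules.IsInvertible (M.restrict f) := by
  refine isInvertible_iff_restrict.mpr fun y => ?_
  obtain ⟨V, hyV, -, ⟨e⟩⟩ := hM (f y) (h ⟨y, rfl⟩)
  refine ⟨f ⁻¹ᵁ V, hyV, ⟨((Scheme.Modules.restrictFunctorComp (f ⁻¹ᵁ V).ι f).app M).symm ≪≫
    e.restrictMap ((f ⁻¹ᵁ V).ι ≫ f) (fun W => ?_) ≪≫ Scheme.Modules.restrictUnitIso _⟩⟩
  rw [Scheme.Hom.comp_image]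
  exact (Scheme.Hom.image_mono f ((f ⁻¹ᵁ V).ι_image_le W)).trans (f.image_preimage_le V)

theorem exists_map_eq {R : CommRingCat.{u}} {M N : (Spec R).Modules} [IsIso M.fromTildeΓ]
    (g : moduleSpecΓFunctor.obj M ⟶ moduleSpecΓFunctor.obj N) :
    ∃ α : M ⟶ N, moduleSpecΓFunctor.map α = g := by
  refine ⟨inv M.fromTildeΓ ≫ ((tilde.adjunction (R := R)).homEquiv _ _).symm g, ?_⟩
  apply ((tilde.adjunction (R := R)).homEquiv _ _).symm.injective
  refine ((tilde.adjunction (R := R)).homEquiv_counit _ _ _).trans ?_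
  refine ((tilde.adjunction (R := R)).counit_naturality _).trans ?_
  exact IsIso.hom_inv_id_assoc M.fromTildeΓ _

theorem map_inj {R : CommRingCat.{u}} {M N : (Spec R).Modules} [IsIso M.fromTildeΓ]
    {α β : M ⟶ N} (h : moduleSpecΓFunctor.map α = moduleSpecΓFunctor.map β) : α = β := by
  refine (cancel_epi M.fromTildeΓ).mp ?_
  have hα := (tilde.adjunction (R := R)).counit_naturality α
  have hβ := (tilde.adjunction (R := R)).counit_naturality β
  exact hα.symm.trans ((congrArg (fun z => (tilde.functor R).map z ≫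
    (tilde.adjunction (R := R)).counit.app N) h).trans hβ)

variable {U : X.Opens} (hU : IsAffineOpen U) {L F : X.Modules}

theorem gammaRestrictEquiv_symm_eq (M : X.Modules) (x : Γ(M, U)) :
    ((gammaRestrictEquiv hU M).symm x : Γ(M.restrict hU.fromSpec, ⊤)) =
      (res M (fromSpec_image_top_eq hU).le x : Γ(M, hU.fromSpec ''ᵁ ⊤)) := by
  apply (gammaRestrictEquiv hU M).injective
  rw [LinearEquiv.apply_symm_apply]
  exact (res_res M (fromSpec_image_top_eq hU).le (fromSpec_image_top_eq hU).ge x).trans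
    (res_self M _ x) |>.symm

include hU in
theorem isIso_fromTildeΓ_restrict (hL : IsInvOn U L) :
    IsIso (L.restrict hU.fromSpec).fromTildeΓ := by
  have hq : (L.restrict hU.fromSpec).IsQuasicoherent := isQuasicoherent_of_isInvertible
    (isInvertible_restrict_of_isInvOn hL _ hU.opensRange_fromSpec.le)
  exact Scheme.Modules.isIso_fromTildeΓ_of_isQuasicoherent _

include hU in
/-- A linear map of sections over an affine open extends to a morphism over it. -/
theorem exists_homOn_extends (hL : IsInvOn U L) (f : Γ(L, U) →ₗ[Γ(X, U)] Γ(F, U)) :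
    ∃ φ : HomOn U L F, ∀ x, φ.app U le_rfl x = f x := by
  have := isIso_fromTildeΓ_restrict hU hL
  let g := ModuleCat.ofHom ((gammaRestrictEquiv hU F).symm.toLinearMap ∘ₗ f ∘ₗ
      (gammaRestrictEquiv hU L).toLinearMap)
  obtain ⟨α, hα⟩ := exists_map_eq (R := Γ(X, U)) (M := L.restrict hU.fromSpec)
    (N := F.restrict hU.fromSpec) g
  refine ⟨HomOn.ofRestrict hU.fromSpec α hU.opensRange_fromSpec.ge, fun x => ?_⟩
  rw [HomOn.ofRestrict_app]
  have hle : hU.fromSpec ⁻¹ᵁ U ≤ ⊤ := le_top
  have h1 := imageApp_res hU.fromSpec α hle (res L (fromSpec_image_top_eq hU).le x)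
  rw [res_res] at h1
  rw [h1, res_res]
  have h2 : imageApp hU.fromSpec α ⊤ (res L (fromSpec_image_top_eq hU).le x) =
      res F (fromSpec_image_top_eq hU).le (f x) := by
    rw [← gammaRestrictEquiv_symm_eq hU L, ← gammaRestrictEquiv_symm_eq hU F]
    refine (ConcreteCategory.congr_hom hα ((gammaRestrictEquiv hU L).symm x)).trans ?_
    change (gammaRestrictEquiv hU F).symm (f (gammaRestrictEquiv hU L
      ((gammaRestrictEquiv hU L).symm x))) = _
    rw [LinearEquiv.apply_symm_apply]
  rw [h2, res_res, res_self]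

include hU in
/-- Morphisms over an affine open are determined by the map of sections over it. -/
theorem homOn_ext (hL : IsInvOn U L) {φ ψ : HomOn U L F}
    (h : ∀ x, φ.app U le_rfl x = ψ.app U le_rfl x) : φ = ψ := by
  have := isIso_fromTildeΓ_restrict hU hL
  have hle : ∀ V, hU.fromSpec ''ᵁ V ≤ U := fun V =>
    (hU.fromSpec.image_le_opensRange V).trans hU.opensRange_fromSpec.le
  have h1 : φ.restrictMap hU.fromSpec hle = ψ.restrictMap hU.fromSpec hle := by
    refine map_inj (R := Γ(X, U)) ?_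
    ext z
    change φ.app (hU.fromSpec ''ᵁ ⊤) (hle ⊤) (show Γ(L, hU.fromSpec ''ᵁ ⊤) from z) =
      ψ.app (hU.fromSpec ''ᵁ ⊤) (hle ⊤) (show Γ(L, hU.fromSpec ''ᵁ ⊤) from z)
    obtain ⟨x, rfl⟩ : ∃ x, res L (fromSpec_image_top_eq hU).le x =
        (show Γ(L, hU.fromSpec ''ᵁ ⊤) from z) :=
      ⟨res L (fromSpec_image_top_eq hU).ge _, by rw [res_res, res_self]⟩
    rw [φ.map_res U _ le_rfl, ψ.map_res U _ le_rfl, h x]
  refine HomOn.ext fun V hV x => ?_
  have h2 : φ.app (hU.fromSpec ''ᵁ (hU.fromSpec ⁻¹ᵁ V)) (hle _)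
      (res L (hU.fromSpec.image_preimage_le V) x) =
      ψ.app _ (hle _) (res L (hU.fromSpec.image_preimage_le V) x) := by
    rw [← HomOn.restrictMap_app hU.fromSpec φ hle, ← HomOn.restrictMap_app hU.fromSpec ψ hle, h1]
  rw [φ.map_res V _ hV, ψ.map_res V _ hV] at h2
  have h3 := congrArg (res F (le_image_preimage hU.fromSpec
    (hV.trans hU.opensRange_fromSpec.ge))) h2
  rwa [res_res, res_self, res_res, res_self] at h3

include hU in
/-- Sections over a basic open are fractions. -/
theorem exists_pow_smul_res (hL : IsInvOn U L) (g : Γ(X, U)) (s : Γ(L, X.basicOpen g)) :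
    ∃ (n : ℕ) (t : Γ(L, U)),
      res L (X.basicOpen_le g) t = resR (X.basicOpen_le g) (g ^ n) • s :=
  have : (L.restrict hU.fromSpec).IsQuasicoherent := isQuasicoherent_of_isInvertible
    (isInvertible_restrict_of_isInvOn hL _ hU.opensRange_fromSpec.le)
  exists_pow_smul_eq_res hU L g s

end Fermat.Agent.Row24.Glue
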