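import Fermat.Prelude.Def_AlgebraicGeometry_RelativePicardFunctor

/-!
# Morphisms of modules on an open subset

Morphisms of modules on an open subset, given section by section, and their gluing.
-/

set_option autoImplicit false

universe u

open CategoryTheory AlgebraicGeometry TopologicalSpace Opposite

noncomputable section

namespace Fermat.Agent.Row24.Glue

abbrev unitMod (X : Scheme.{u}) : X.Modules := SheafOfModules.unit _

variable {X : Scheme.{u}}

/-- Restriction of a section of a module. -/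
def res (M : X.Modules) {U V : X.Opens} (h : V ≤ U) : Γ(M, U) →+ Γ(M, V) :=
  (M.presheaf.map (homOfLE h).op).hom

/-- Restriction of a function. -/
def resR {U V : X.Opens} (h : V ≤ U) : Γ(X, U) →+* Γ(X, V) :=
  (X.presheaf.map (homOfLE h).op).hom

@[simp] theorem res_self (M : X.Modules) {U : X.Opens} (h : U ≤ U) (x : Γ(M, U)) :
    res M h x = x := by
  change (M.presheaf.map (𝟙 _)) x = x
  simp

@[simp] theorem res_res (M : X.Modules) {U V W : X.Opens} (h : V ≤ U) (h' : W ≤ V)
    (x : Γ(M, U)) : res M h' (res M h x) = res M (h'.trans h) x := by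
  simp only [res]
  rw [← ConcreteCategory.comp_apply, ← Functor.map_comp]
  rfl

@[simp] theorem resR_self {U : X.Opens} (h : U ≤ U) (x : Γ(X, U)) : resR h x = x := by
  change (X.presheaf.map (𝟙 _)) x = x
  simp

@[simp] theorem resR_resR {U V W : X.Opens} (h : V ≤ U) (h' : W ≤ V) (x : Γ(X, U)) :
    resR h' (resR h x) = resR (h'.trans h) x := by
  simp only [resR]
  rw [← ConcreteCategory.comp_apply, ← Functor.map_comp]
  rfl

@[simp] theorem res_smul (M : X.Modules) {U V : X.Opens} (h : V ≤ U) (r : Γ(X, U))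
    (x : Γ(M, U)) : res M h (r • x) = resR h r • res M h x :=
  Scheme.Modules.map_smul M (homOfLE h) r x

/-- Sections that agree locally are equal. -/
theorem ext_local (M : X.Modules) {κ : Type u} {V : X.Opens} (Y : κ → X.Opens)
    (hY : ∀ a, Y a ≤ V) (hcov : V ≤ iSup Y) {x y : Γ(M, V)}
    (h : ∀ a, res M (hY a) x = res M (hY a) y) : x = y :=
  TopCat.Sheaf.eq_of_locally_eq' (⟨M.presheaf, M.isSheaf⟩ : TopCat.Sheaf Ab X) Y V
    (fun a => homOfLE (hY a)) hcov x y h

/-- Compatible sections glue. -/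
theorem exists_glue (M : X.Modules) {κ : Type u} {V : X.Opens} (Y : κ → X.Opens)
    (hY : ∀ a, Y a ≤ V) (hcov : V ≤ iSup Y) (sf : ∀ a, Γ(M, Y a))
    (h : ∀ a b (Z : X.Opens) (ha : Z ≤ Y a) (hb : Z ≤ Y b),
      res M ha (sf a) = res M hb (sf b)) :
    ∃ x : Γ(M, V), ∀ a, res M (hY a) x = sf a := by
  obtain ⟨x, hx, -⟩ := TopCat.Sheaf.existsUnique_gluing'
    (⟨M.presheaf, M.isSheaf⟩ : TopCat.Sheaf Ab X) Y V
    (fun a => homOfLE (hY a)) hcov sf (fun a b => h a b (Y a ⊓ Y b) inf_le_left inf_le_right)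
  exact ⟨x, hx⟩

/-- Functions that agree locally are equal. -/
theorem extR_local {κ : Type u} {V : X.Opens} (Y : κ → X.Opens)
    (hY : ∀ a, Y a ≤ V) (hcov : V ≤ iSup Y) {x y : Γ(X, V)}
    (h : ∀ a, resR (hY a) x = resR (hY a) y) : x = y :=
  ext_local (unitMod X) Y hY hcov h

/-- Compatible functions glue. -/
theorem existsR_glue {κ : Type u} {V : X.Opens} (Y : κ → X.Opens)
    (hY : ∀ a, Y a ≤ V) (hcov : V ≤ iSup Y) (sf : ∀ a, Γ(X, Y a))
    (h : ∀ a b (Z : X.Opens) (ha : Z ≤ Y a) (hb : Z ≤ Y b),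
      resR ha (sf a) = resR hb (sf b)) :
    ∃ x : Γ(X, V), ∀ a, resR (hY a) x = sf a :=
  exists_glue (unitMod X) Y hY hcov sf h

theorem iSup_inf_cover {κ : Type u} {V : X.Opens} (Y : κ → X.Opens) (h : V ≤ iSup Y) :
    V ≤ ⨆ a, V ⊓ Y a := by
  rw [← inf_iSup_eq]
  exact le_inf le_rfl h

/-- A morphism of modules over the open subset `U`. -/
structure HomOn (U : X.Opens) (M N : X.Modules) where
  app : ∀ V : X.Opens, V ≤ U → Γ(M, V) →+ Γ(N, V)
  map_smul : ∀ (V : X.Opens) (h : V ≤ U) (r : Γ(X, V)) (x : Γ(M, V)),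
    app V h (r • x) = r • app V h x
  map_res : ∀ (V Z : X.Opens) (hV : V ≤ U) (hZ : Z ≤ V) (x : Γ(M, V)),
    app Z (hZ.trans hV) (res M hZ x) = res N hZ (app V hV x)

namespace HomOn

variable {U U' : X.Opens} {M N K : X.Modules}

@[ext] theorem ext {f g : HomOn U M N} (h : ∀ V hV x, f.app V hV x = g.app V hV x) : f = g := by
  obtain ⟨fa, _, _⟩ := f
  obtain ⟨ga, _, _⟩ := g
  congr
  funext V hV
  ext x
  exact h V hV x

protected def id (U : X.Opens) (M : X.Modules) : HomOn U M M where
  app _ _ := AddMonoidHom.id _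
  map_smul _ _ _ _ := rfl
  map_res _ _ _ _ _ := rfl

def comp (f : HomOn U M N) (g : HomOn U N K) : HomOn U M K where
  app V h := (g.app V h).comp (f.app V h)
  map_smul V h r x := by simp [f.map_smul, g.map_smul]
  map_res V Z hV hZ x := by simp [f.map_res V Z hV hZ, g.map_res V Z hV hZ]

@[simp] theorem comp_app (f : HomOn U M N) (g : HomOn U N K) (V : X.Opens) (h : V ≤ U)
    (x : Γ(M, V)) : (f.comp g).app V h x = g.app V h (f.app V h x) := rfl

def mono (f : HomOn U M N) (h : U' ≤ U) : HomOn U' M N where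
  app V hV := f.app V (hV.trans h)
  map_smul V hV := f.map_smul V (hV.trans h)
  map_res V Z hV hZ := f.map_res V Z (hV.trans h) hZ

@[simp] theorem mono_app (f : HomOn U M N) (h : U' ≤ U) (V : X.Opens) (hV : V ≤ U')
    (x : Γ(M, V)) : (f.mono h).app V hV x = f.app V (hV.trans h) x := rfl

def ofHom (φ : M ⟶ N) (U : X.Opens) : HomOn U M N where
  app V _ := (φ.app V).hom
  map_smul _ _ r x := Scheme.Modules.Hom.app_smul φ r x
  map_res _ _ _ hZ x :=
    (ConcreteCategory.congr_hom (φ.mapPresheaf.naturality (homOfLE hZ).op) x)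

@[simp] theorem ofHom_app (φ : M ⟶ N) (U V : X.Opens) (h : V ≤ U) (x : Γ(M, V)) :
    (ofHom φ U).app V h x = φ.app V x := rfl

def toHom (f : HomOn ⊤ M N) : M ⟶ N :=
  ⟨PresheafOfModules.homMk
    { app := fun V => AddCommGrpCat.ofHom (f.app V.unop le_top)
      naturality := fun V Z i => by
        ext x
        exact f.map_res V.unop Z.unop le_top (leOfHom i.unop) x }
    (fun V r x => f.map_smul V.unop le_top r x)⟩

/-- Morphisms that agree on a cover are equal. -/
theorem ext_of_cover {κ : Type u} (Y : κ → X.Opens) (hcov : U ≤ iSup Y) {f g : HomOn U M N}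
    (h : ∀ a V (hV : V ≤ U) (_ : V ≤ Y a) (x : Γ(M, V)), f.app V hV x = g.app V hV x) :
    f = g := by
  ext V hV x
  refine ext_local N (fun a => V ⊓ Y a) (fun a => inf_le_left)
    (iSup_inf_cover Y (hV.trans hcov)) fun a => ?_
  rw [← f.map_res, ← g.map_res]
  exact h a _ _ inf_le_right _

/-- Gluing of morphisms along a cover. -/
theorem exists_glue {κ : Type u} (Y : κ → X.Opens) (hcov : U ≤ iSup Y)
    (f : ∀ a, HomOn (Y a) M N)
    (h : ∀ a b V (ha : V ≤ Y a) (hb : V ≤ Y b) (x : Γ(M, V)),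
      (f a).app V ha x = (f b).app V hb x) :
    ∃ F : HomOn U M N, ∀ a V (hV : V ≤ U) (ha : V ≤ Y a) (x : Γ(M, V)),
      F.app V hV x = (f a).app V ha x := by
  have hex : ∀ (V : X.Opens), V ≤ U → ∀ x : Γ(M, V), ∃ y : Γ(N, V),
      ∀ a, res N inf_le_left y = (f a).app (V ⊓ Y a) inf_le_right (res M inf_le_left x) := by
    intro V hV x
    refine Glue.exists_glue N (fun a => V ⊓ Y a) (fun a => inf_le_left)
      (iSup_inf_cover Y (hV.trans hcov)) _ fun a b Z ha hb => ?_
    rw [← (f a).map_res _ _ inf_le_right ha, ← (f b).map_res _ _ inf_le_right hb,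
      res_res, res_res]
    exact h a b Z _ _ _
  choose app happ using hex
  have uniq : ∀ (V : X.Opens) (hV : V ≤ U) (x : Γ(M, V)) (y : Γ(N, V)),
      (∀ a, res N inf_le_left y = (f a).app (V ⊓ Y a) inf_le_right (res M inf_le_left x)) →
      app V hV x = y := fun V hV x y hy =>
    ext_local N (fun a => V ⊓ Y a) (fun a => inf_le_left) (iSup_inf_cover Y (hV.trans hcov))
      fun a => (happ V hV x a).trans (hy a).symm
  let F : HomOn U M N :=
    { app := fun V hV => AddMonoidHom.mk' (app V hV) fun x y =>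
        uniq V hV _ _ fun a => by simp [happ]
      map_smul := fun V hV r x => uniq V hV _ _ fun a => by
        simp [happ, (f a).map_smul]
      map_res := fun V Z hV hZ x => uniq Z _ _ _ fun a => by
        have h1 := congrArg (res N (inf_le_inf_right (Y a) hZ)) (happ V hV x a)
        rw [res_res, ← (f a).map_res, res_res] at h1
        rw [res_res, res_res]
        exact h1 }
  refine ⟨F, fun a V hV ha x => ?_⟩
  have h1 := congrArg (res N (le_inf le_rfl ha)) (happ V hV x a)
  rw [res_res, res_self, ← (f a).map_res, res_res, res_self] at h1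
  exact h1

end HomOn

/-- An isomorphism of modules over the open subset `U`. -/
structure IsoOn (U : X.Opens) (M N : X.Modules) where
  hom : HomOn U M N
  inv : HomOn U N M
  hom_inv : ∀ V (h : V ≤ U) (x : Γ(M, V)), inv.app V h (hom.app V h x) = x
  inv_hom : ∀ V (h : V ≤ U) (x : Γ(N, V)), hom.app V h (inv.app V h x) = x

namespace IsoOn

variable {U U' : X.Opens} {M N K : X.Modules}

protected def refl (U : X.Opens) (M : X.Modules) : IsoOn U M M :=
  ⟨HomOn.id U M, HomOn.id U M, fun _ _ _ => rfl, fun _ _ _ => rfl⟩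

protected def symm (e : IsoOn U M N) : IsoOn U N M :=
  ⟨e.inv, e.hom, e.inv_hom, e.hom_inv⟩

protected def trans (e : IsoOn U M N) (e' : IsoOn U N K) : IsoOn U M K :=
  ⟨e.hom.comp e'.hom, e'.inv.comp e.inv, fun V h x => by simp [e.hom_inv, e'.hom_inv],
    fun V h x => by simp [e.inv_hom, e'.inv_hom]⟩

def mono (e : IsoOn U M N) (h : U' ≤ U) : IsoOn U' M N :=
  ⟨e.hom.mono h, e.inv.mono h, fun V hV => e.hom_inv V (hV.trans h),
    fun V hV => e.inv_hom V (hV.trans h)⟩

def toIso (e : IsoOn ⊤ M N) : M ≅ N where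
  hom := e.hom.toHom
  inv := e.inv.toHom
  hom_inv_id := Scheme.Modules.hom_ext _ _ fun V => by
    ext x
    exact e.hom_inv V le_top x
  inv_hom_id := Scheme.Modules.hom_ext _ _ fun V => by
    ext x
    exact e.inv_hom V le_top x

/-- Gluing of isomorphisms along a cover. -/
theorem exists_glue {κ : Type u} (Y : κ → X.Opens) (hcov : U ≤ iSup Y)
    (e : ∀ a, IsoOn (Y a) M N)
    (h : ∀ a b V (ha : V ≤ Y a) (hb : V ≤ Y b) (x : Γ(M, V)),
      (e a).hom.app V ha x = (e b).hom.app V hb x) :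
    Nonempty (IsoOn U M N) := by
  obtain ⟨F, hF⟩ := HomOn.exists_glue Y hcov (fun a => (e a).hom) h
  obtain ⟨G, hG⟩ := HomOn.exists_glue Y hcov (fun a => (e a).inv) fun a b V ha hb x => by
    conv_lhs => rw [← (e b).inv_hom V hb x, ← h a b V ha hb, (e a).hom_inv]
  have h1 : F.comp G = HomOn.id U M := HomOn.ext_of_cover Y hcov fun a V hV ha x => by
    change G.app V hV (F.app V hV x) = x
    rw [hF a V hV ha, hG a V hV ha, (e a).hom_inv]
  have h2 : G.comp F = HomOn.id U N := HomOn.ext_of_cover Y hcov fun a V hV ha x => by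
    change F.app V hV (G.app V hV x) = x
    rw [hG a V hV ha, hF a V hV ha, (e a).inv_hom]
  exact ⟨⟨F, G, fun V hV x => congrArg (fun f : HomOn U M M => f.app V hV x) h1,
    fun V hV x => congrArg (fun f : HomOn U N N => f.app V hV x) h2⟩⟩

end IsoOn

section Restrict

variable {Y : Scheme.{u}} (j : Y ⟶ X) [IsOpenImmersion j] {U : X.Opens} {M N : X.Modules}

theorem le_image_preimage {V : X.Opens} (h : V ≤ j.opensRange) : V ≤ j ''ᵁ j ⁻¹ᵁ V := by
  rw [Scheme.Hom.image_preimage_eq_opensRange_inf]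
  exact le_inf h le_rfl

/-- A morphism over `U` restricts along an open immersion into `U`. -/
def HomOn.restrictMap (f : HomOn U M N) (h : ∀ V, j ''ᵁ V ≤ U) :
    M.restrict j ⟶ N.restrict j :=
  HomOn.toHom
    { app := fun V _ => f.app (j ''ᵁ V) (h V)
      map_smul := fun V _ r x => f.map_smul (j ''ᵁ V) (h V) ((j.appIso V).inv r) x
      map_res := fun V Z _ hZ x =>
        f.map_res (j ''ᵁ V) (j ''ᵁ Z) (h V) (Scheme.Hom.image_mono j hZ) x }

theorem HomOn.restrictMap_app (f : HomOn U M N) (h : ∀ V, j ''ᵁ V ≤ U) (V : Y.Opens)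
    (x : Γ(M, j ''ᵁ V)) :
    (f.restrictMap j h).app V x = f.app (j ''ᵁ V) (h V) x := rfl

def IsoOn.restrictMap (e : IsoOn U M N) (h : ∀ V, j ''ᵁ V ≤ U) :
    M.restrict j ≅ N.restrict j where
  hom := e.hom.restrictMap j h
  inv := e.inv.restrictMap j h
  hom_inv_id := Scheme.Modules.hom_ext _ _ fun V => by
    ext x
    exact e.hom_inv (j ''ᵁ V) (h V) x
  inv_hom_id := Scheme.Modules.hom_ext _ _ fun V => by
    ext x
    exact e.inv_hom (j ''ᵁ V) (h V) x

/-- The components of a morphism of restricted modules, on the sections of the modules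
themselves. -/
def imageApp (α : M.restrict j ⟶ N.restrict j) (W : Y.Opens) :
    Γ(M, j ''ᵁ W) →+ Γ(N, j ''ᵁ W) :=
  (α.app W).hom

theorem imageApp_smul (α : M.restrict j ⟶ N.restrict j) (W : Y.Opens) (r : Γ(X, j ''ᵁ W))
    (z : Γ(M, j ''ᵁ W)) : imageApp j α W (r • z) = r • imageApp j α W z := by
  obtain ⟨r', rfl⟩ : ∃ r', (j.appIso W).inv r' = r := ⟨(j.appIso W).hom r, by simp⟩
  exact Scheme.Modules.Hom.app_smul α r' z

theorem imageApp_res (α : M.restrict j ⟶ N.restrict j) {W W' : Y.Opens} (h : W' ≤ W)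
    (z : Γ(M, j ''ᵁ W)) :
    imageApp j α W' (res M (Scheme.Hom.image_mono j h) z) =
      res N (Scheme.Hom.image_mono j h) (imageApp j α W z) :=
  ConcreteCategory.congr_hom (α.mapPresheaf.naturality (homOfLE h).op) z

theorem imageApp_inv (e : M.restrict j ≅ N.restrict j) (W : Y.Opens) (z : Γ(M, j ''ᵁ W)) :
    imageApp j e.inv W (imageApp j e.hom W z) = z := by
  change (e.hom.app W ≫ e.inv.app W) z = z
  rw [← Scheme.Modules.Hom.comp_app, e.hom_inv_id]
  rfl

/-- A morphism of restricted modules, viewed over an open subset of the range. -/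
def HomOn.ofRestrict (α : M.restrict j ⟶ N.restrict j) (h : U ≤ j.opensRange) :
    HomOn U M N where
  app V hV := (res N (le_image_preimage j (hV.trans h))).comp
    ((imageApp j α (j ⁻¹ᵁ V)).comp (res M (j.image_preimage_le V)))
  map_smul V hV r x := by
    simp only [AddMonoidHom.comp_apply, res_smul, imageApp_smul, resR_resR, resR_self]
  map_res V Z hV hZ x := by
    have hpre : j ⁻¹ᵁ Z ≤ j ⁻¹ᵁ V := fun y hy => hZ hy
    simp only [AddMonoidHom.comp_apply, res_res]
    have h1 := imageApp_res j α hpre (res M (j.image_preimage_le V) x)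
    rw [res_res] at h1
    rw [h1, res_res]

theorem HomOn.ofRestrict_app (α : M.restrict j ⟶ N.restrict j) (h : U ≤ j.opensRange)
    (V : X.Opens) (hV : V ≤ U) (x : Γ(M, V)) :
    (HomOn.ofRestrict j α h).app V hV x =
      res N (le_image_preimage j (hV.trans h))
        (imageApp j α (j ⁻¹ᵁ V) (res M (j.image_preimage_le V) x)) := rfl

def IsoOn.ofRestrict (e : M.restrict j ≅ N.restrict j) (h : U ≤ j.opensRange) :
    IsoOn U M N where
  hom := HomOn.ofRestrict j e.hom h
  inv := HomOn.ofRestrict j e.inv h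
  hom_inv V hV x := by
    rw [HomOn.ofRestrict_app, HomOn.ofRestrict_app, res_res, res_self, imageApp_inv,
      res_res, res_self]
  inv_hom V hV x := by
    rw [HomOn.ofRestrict_app, HomOn.ofRestrict_app, res_res, res_self]
    erw [imageApp_inv j e.symm]
    rw [res_res, res_self]

end Restrict

end Fermat.Agent.Row24.Glue
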