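import Fermat.Agent.Row24.Glue.HomOn

/-!
# Gluing sheaves of modules

Gluing of sheaves of modules along an open cover.
-/

set_option autoImplicit false

universe u

open CategoryTheory AlgebraicGeometry TopologicalSpace Opposite

noncomputable section

namespace Fermat.Agent.Row24.Glue

/-- Gluing data for sheaves of modules on the opens `W i` of `X`. -/
structure Datum (X : Scheme.{u}) where
  ι : Type u
  W : ι → X.Opens
  P : ι → X.Modules
  φ : ∀ i j, HomOn (W i ⊓ W j) (P i) (P j)
  self : ∀ i (V : X.Opens) (h : V ≤ W i) (x : Γ(P i, V)),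
    (φ i i).app V (le_inf h h) x = x
  cocycle : ∀ i j k (V : X.Opens) (hi : V ≤ W i) (hj : V ≤ W j) (hk : V ≤ W k) (x : Γ(P i, V)),
    (φ j k).app V (le_inf hj hk) ((φ i j).app V (le_inf hi hj) x) =
      (φ i k).app V (le_inf hi hk) x

namespace Datum

variable {X : Scheme.{u}} (D : Datum X)

/-- The sections of the glued sheaf. -/
def sections (V : X.Opens) : AddSubgroup (∀ i, Γ(D.P i, V ⊓ D.W i)) where
  carrier := {x | ∀ i j (Z : X.Opens) (hV : Z ≤ V) (hi : Z ≤ D.W i) (hj : Z ≤ D.W j),
    (D.φ i j).app Z (le_inf hi hj) (res (D.P i) (le_inf hV hi) (x i)) =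
      res (D.P j) (le_inf hV hj) (x j)}
  add_mem' hx hy i j Z hV hi hj := by simp [hx i j Z hV hi hj, hy i j Z hV hi hj]
  zero_mem' i j Z hV hi hj := by simp
  neg_mem' hx i j Z hV hi hj := by simp [hx i j Z hV hi hj]

theorem smul_mem {V : X.Opens} (r : Γ(X, V)) (x : D.sections V) :
    (fun i => resR (inf_le_left : V ⊓ D.W i ≤ V) r • x.1 i : ∀ i, Γ(D.P i, V ⊓ D.W i)) ∈ D.sections V := by
  intro i j Z hV hi hj
  simp only [res_smul, resR_resR, HomOn.map_smul]
  rw [x.2 i j Z hV hi hj]

instance (V : X.Opens) : Module Γ(X, V) (D.sections V) where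
  smul r x := ⟨_, D.smul_mem r x⟩
  one_smul x := Subtype.ext (funext fun i => by
    change resR (inf_le_left : V ⊓ D.W i ≤ V) (1 : Γ(X, V)) • x.1 i = x.1 i
    rw [map_one, one_smul])
  mul_smul r r' x := Subtype.ext (funext fun i => by
    change resR (inf_le_left : V ⊓ D.W i ≤ V) (r * r') • x.1 i = resR (inf_le_left : V ⊓ D.W i ≤ V) r • resR (inf_le_left : V ⊓ D.W i ≤ V) r' • x.1 i
    rw [map_mul, mul_smul])
  smul_zero r := Subtype.ext (funext fun i => by
    change resR (inf_le_left : V ⊓ D.W i ≤ V) r • (0 : Γ(D.P i, V ⊓ D.W i)) = 0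
    rw [smul_zero])
  smul_add r x y := Subtype.ext (funext fun i => by
    change resR (inf_le_left : V ⊓ D.W i ≤ V) r • (x.1 i + y.1 i) =
      resR (inf_le_left : V ⊓ D.W i ≤ V) r • x.1 i + resR (inf_le_left : V ⊓ D.W i ≤ V) r • y.1 i
    rw [smul_add])
  add_smul r r' x := Subtype.ext (funext fun i => by
    change resR (inf_le_left : V ⊓ D.W i ≤ V) (r + r') • x.1 i =
      resR (inf_le_left : V ⊓ D.W i ≤ V) r • x.1 i + resR (inf_le_left : V ⊓ D.W i ≤ V) r' • x.1 i
    rw [map_add, add_smul])
  zero_smul x := Subtype.ext (funext fun i => by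
    change resR (inf_le_left : V ⊓ D.W i ≤ V) (0 : Γ(X, V)) • x.1 i = 0
    rw [map_zero, zero_smul])

def resSection {V V' : X.Opens} (h : V' ≤ V) : D.sections V →+ D.sections V' where
  toFun x := ⟨fun i => res (D.P i) (inf_le_inf_right _ h) (x.1 i), fun i j Z hV hi hj => by
    simp only [res_res]
    exact x.2 i j Z (hV.trans h) hi hj⟩
  map_zero' := Subtype.ext (funext fun i => map_zero _)
  map_add' x y := Subtype.ext (funext fun i => map_add _ _ _)

theorem resSection_apply {V V' : X.Opens} (h : V' ≤ V) (x : D.sections V) (i : D.ι) :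
    (D.resSection h x).1 i = res (D.P i) (inf_le_inf_right _ h) (x.1 i) := rfl

def abPresheaf : TopCat.Presheaf Ab X where
  obj V := AddCommGrpCat.of (D.sections V.unop)
  map {V V'} f := AddCommGrpCat.ofHom (D.resSection (leOfHom f.unop))
  map_id V := by
    ext x i
    exact res_self (D.P i) _ _
  map_comp {V V' V''} f g := by
    ext x i
    change res (D.P i) _ ((show D.sections V.unop from x).1 i) =
      res (D.P i) (inf_le_inf_right _ (leOfHom g.unop))
        (res (D.P i) (inf_le_inf_right _ (leOfHom f.unop)) ((show D.sections V.unop from x).1 i))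
    rw [res_res]

instance (V : (Opens X)ᵒᵖ) : Module (X.ringCatSheaf.obj.obj V) (D.abPresheaf.obj V) :=
  inferInstanceAs (Module Γ(X, V.unop) (D.sections V.unop))

theorem abPresheaf_isSheaf : D.abPresheaf.IsSheaf := by
  rw [TopCat.Presheaf.isSheaf_iff_isSheafUniqueGluing]
  intro κ U sf hsf
  let V : X.Opens := iSup U
  have hUV : ∀ a, U a ≤ V := le_iSup U
  have hcov : ∀ i, V ⊓ D.W i ≤ ⨆ a, U a ⊓ D.W i := fun i => (iSup_inf_eq U (D.W i)).le
  have hsf' : ∀ a b, D.resSection (inf_le_left : U a ⊓ U b ≤ U a) (sf a) =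
      D.resSection inf_le_right (sf b) := hsf
  have hex : ∀ i, ∃ x : Γ(D.P i, V ⊓ D.W i), ∀ a,
      res (D.P i) (inf_le_inf_right _ (hUV a)) x = (sf a).1 i := by
    intro i
    refine exists_glue (D.P i) (fun a => U a ⊓ D.W i)
      (fun a => inf_le_inf_right _ (hUV a)) (hcov i) _ fun a b Z ha hb => ?_
    have hle : Z ≤ (U a ⊓ U b) ⊓ D.W i :=
      le_inf (le_inf (ha.trans inf_le_left) (hb.trans inf_le_left)) (ha.trans inf_le_right)
    have h0 : (D.resSection (inf_le_left : U a ⊓ U b ≤ U a) (sf a)).1 i =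
        (D.resSection (inf_le_right : U a ⊓ U b ≤ U b) (sf b)).1 i := by
      rw [hsf' a b]
    have h1 := congrArg (res (D.P i) hle) h0
    erw [resSection_apply, resSection_apply, res_res, res_res] at h1
    exact h1
  choose x hx using hex
  have hmem : x ∈ D.sections V := by
    intro i j Z hV hi hj
    refine ext_local (D.P j) (fun a => Z ⊓ U a) (fun a => inf_le_left)
      (iSup_inf_cover U hV) fun a => ?_
    rw [← (D.φ i j).map_res _ _ _ inf_le_left, res_res, res_res]
    have key := (sf a).2 i j (Z ⊓ U a) inf_le_right (inf_le_left.trans hi) (inf_le_left.trans hj)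
    rw [← hx i a, ← hx j a, res_res, res_res] at key
    exact key
  refine ⟨⟨x, hmem⟩, fun a => Subtype.ext (funext fun i => hx i a), fun y hy => ?_⟩
  refine Subtype.ext (funext fun i => ?_)
  refine ext_local (D.P i) (fun a => U a ⊓ D.W i) (fun a => inf_le_inf_right _ (hUV a))
    (hcov i) fun a => ?_
  exact (congrArg (fun z : D.sections (U a) => z.1 i) (hy a)).trans (hx i a).symm

theorem abPresheaf_map_smul {V V' : (Opens X)ᵒᵖ} (f : V ⟶ V') (r : X.ringCatSheaf.obj.obj V)
    (x : D.abPresheaf.obj V) :
    D.abPresheaf.map f (r • x) = X.ringCatSheaf.obj.map f r • D.abPresheaf.map f x := by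
  refine Subtype.ext (funext fun i => ?_)
  change res (D.P i) (inf_le_inf_right _ (leOfHom f.unop))
      (resR (inf_le_left : V.unop ⊓ D.W i ≤ V.unop) (show Γ(X, V.unop) from r) •
        (show D.sections V.unop from x).1 i) =
    resR (inf_le_left : V'.unop ⊓ D.W i ≤ V'.unop)
        (resR (leOfHom f.unop) (show Γ(X, V.unop) from r)) •
      res (D.P i) (inf_le_inf_right _ (leOfHom f.unop)) ((show D.sections V.unop from x).1 i)
  rw [res_smul, resR_resR, resR_resR]

/-- The glued sheaf of modules. -/
def glued : X.Modules where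
  val := PresheafOfModules.ofPresheaf D.abPresheaf fun {_ _} f r x => D.abPresheaf_map_smul f r x
  isSheaf := D.abPresheaf_isSheaf

/-- The comparison of the glued sheaf with `P i` over `W i`. -/
def proj (i : D.ι) : HomOn (D.W i) D.glued (D.P i) where
  app V hV :=
    { toFun := fun x => res (D.P i) (le_inf le_rfl hV) ((show D.sections V from x).1 i)
      map_zero' := map_zero _
      map_add' := fun x y => map_add _ _ _ }
  map_smul V hV r x := by
    change res (D.P i) (le_inf le_rfl hV) (resR (inf_le_left : V ⊓ D.W i ≤ V) r • (show D.sections V from x).1 i) =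
      r • res (D.P i) (le_inf le_rfl hV) ((show D.sections V from x).1 i)
    rw [res_smul, resR_resR, resR_self]
  map_res V Z hV hZ x := by
    change res (D.P i) (le_inf le_rfl (hZ.trans hV))
        ((D.resSection hZ (show D.sections V from x)).1 i) =
      res (D.P i) hZ (res (D.P i) (le_inf le_rfl hV) ((show D.sections V from x).1 i))
    rw [resSection_apply, res_res, res_res]

theorem proj_compat (i j : D.ι) (V : X.Opens) (hi : V ≤ D.W i) (hj : V ≤ D.W j)
    (x : Γ(D.glued, V)) :
    (D.φ i j).app V (le_inf hi hj) ((D.proj i).app V hi x) = (D.proj j).app V hj x :=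
  (show D.sections V from x).2 i j V le_rfl hi hj

def lift (i : D.ι) : HomOn (D.W i) (D.P i) D.glued where
  app V hV :=
    { toFun := fun y => (show Γ(D.glued, V) from
        (⟨fun j => (D.φ i j).app (V ⊓ D.W j) (inf_le_inf_right _ hV)
          (res (D.P i) inf_le_left y), fun j k Z hZ hj hk => by
          rw [← (D.φ i j).map_res _ Z _ (le_inf hZ hj), ← (D.φ i k).map_res _ Z _ (le_inf hZ hk),
            res_res, res_res]
          exact D.cocycle i j k Z (hZ.trans hV) hj hk _⟩ : D.sections V))
      map_zero' := Subtype.ext (funext fun j => by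
        change (D.φ i j).app (V ⊓ D.W j) _ (res (D.P i) inf_le_left 0) = 0
        rw [map_zero, map_zero])
      map_add' := fun y z => Subtype.ext (funext fun j => by
        change (D.φ i j).app (V ⊓ D.W j) _ (res (D.P i) inf_le_left (y + z)) = _ + _
        rw [map_add, map_add]) }
  map_smul V hV r y := Subtype.ext (funext fun j => by
    change (D.φ i j).app (V ⊓ D.W j) _ (res (D.P i) inf_le_left (r • y)) =
      resR (inf_le_left : V ⊓ D.W j ≤ V) r •
        (D.φ i j).app (V ⊓ D.W j) _ (res (D.P i) inf_le_left y)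
    rw [res_smul, HomOn.map_smul])
  map_res V Z hV hZ y := Subtype.ext (funext fun j => by
    change (D.φ i j).app (Z ⊓ D.W j) _ (res (D.P i) inf_le_left (res (D.P i) hZ y)) =
      res (D.P j) (inf_le_inf_right _ hZ)
        ((D.φ i j).app (V ⊓ D.W j) _ (res (D.P i) inf_le_left y))
    rw [← (D.φ i j).map_res, res_res, res_res])

/-- The glued sheaf is `P i` over `W i`. -/
def gluedIso (i : D.ι) : IsoOn (D.W i) D.glued (D.P i) where
  hom := D.proj i
  inv := D.lift i
  hom_inv V hV x := Subtype.ext (funext fun j => by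
    change (D.φ i j).app (V ⊓ D.W j) _ (res (D.P i) inf_le_left
      (res (D.P i) (le_inf le_rfl hV) ((show D.sections V from x).1 i))) =
        (show D.sections V from x).1 j
    rw [res_res]
    exact ((show D.sections V from x).2 i j (V ⊓ D.W j) inf_le_left
      (inf_le_left.trans hV) inf_le_right).trans (res_self _ _ _))
  inv_hom V hV y := by
    change res (D.P i) (le_inf le_rfl hV)
      ((D.φ i i).app (V ⊓ D.W i) _ (res (D.P i) inf_le_left y)) = y
    rw [← (D.φ i i).map_res, res_res, res_self]
    exact D.self i V hV y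

end Datum

end Fermat.Agent.Row24.Glue
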