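import Fermat.Agent.Row24.Glue.HomOn

/-!
# Invertible modules and rigidifications, section by section

Invertible modules section by section; rigidifications along a morphism `s : T ⟶ X`; rigidified
isomorphisms are unique over opens whose functions are detected by `s`.
-/

set_option autoImplicit false

universe u

open CategoryTheory AlgebraicGeometry TopologicalSpace Opposite

noncomputable section

namespace Fermat.Agent.Row24.Glue

variable {X : Scheme.{u}}

/-- A function which is locally a unit is a unit. -/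
theorem isUnit_of_local {κ : Type u} {V : X.Opens} (Y : κ → X.Opens) (hY : ∀ a, Y a ≤ V)
    (hcov : V ≤ iSup Y) {f : Γ(X, V)} (h : ∀ a, IsUnit (resR (hY a) f)) : IsUnit f := by
  obtain ⟨g, hg⟩ := existsR_glue Y hY hcov (fun a => ((h a).unit⁻¹ : Γ(X, Y a)ˣ).1)
    fun a b Z ha hb => by
      refine left_inv_eq_right_inv (a := resR (ha.trans (hY a)) f) ?_ ?_
      · rw [← resR_resR (hY a) ha, ← map_mul, IsUnit.val_inv_mul, map_one]
      · rw [← resR_resR (hY b) hb, ← map_mul, IsUnit.mul_val_inv, map_one]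
  refine IsUnit.of_mul_eq_one g (extR_local Y hY hcov fun a => ?_)
  rw [map_mul, map_one, hg, IsUnit.mul_val_inv]

/-- `M` is invertible over `W`. -/
def IsInvOn (W : X.Opens) (M : X.Modules) : Prop :=
  ∀ x : X, x ∈ W → ∃ V : X.Opens, x ∈ V ∧ V ≤ W ∧ Nonempty (IsoOn V M (unitMod X))

theorem IsInvOn.mono {W W' : X.Opens} {M : X.Modules} (h : IsInvOn W M) (hle : W' ≤ W) :
    IsInvOn W' M := fun x hx => by
  obtain ⟨V, hxV, -, ⟨e⟩⟩ := h x (hle hx)
  exact ⟨V ⊓ W', ⟨hxV, hx⟩, inf_le_right, ⟨e.mono inf_le_left⟩⟩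

theorem IsInvOn.of_isoOn {W : X.Opens} {M N : X.Modules} (h : IsInvOn W N) (e : IsoOn W M N) :
    IsInvOn W M := fun x hx => by
  obtain ⟨V, hxV, hVW, ⟨e'⟩⟩ := h x hx
  exact ⟨V, hxV, hVW, ⟨(e.mono hVW).trans e'⟩⟩

theorem isInvOn_of_isInvertible {M : X.Modules} (h : Scheme.Modules.IsInvertible M)
    (W : X.Opens) : IsInvOn W M := by
  refine IsInvOn.mono (fun x _ => ?_) (le_top : W ≤ ⊤)
  obtain ⟨U, hxU, ⟨e⟩⟩ := h.exists_trivialization x
  refine ⟨U, hxU, le_top, ⟨IsoOn.ofRestrict U.ι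
    ((Scheme.Modules.restrictFunctorIsoPullback U.ι).app M ≪≫ e ≪≫
      (Scheme.Modules.restrictUnitIso U.ι).symm) ?_⟩⟩
  rw [Scheme.Opens.opensRange_ι]

theorem isInvertible_of_isInvOn {M : X.Modules} (h : IsInvOn ⊤ M) :
    Scheme.Modules.IsInvertible M := by
  refine ⟨fun x => ?_⟩
  obtain ⟨V, hxV, -, ⟨e⟩⟩ := h x trivial
  exact ⟨V, hxV, ⟨((Scheme.Modules.restrictFunctorIsoPullback V.ι).app M).symm ≪≫
    e.restrictMap V.ι (fun Z => V.ι_image_le Z) ≪≫ Scheme.Modules.restrictUnitIso V.ι⟩⟩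

theorem IsInvOn.exists_cover {W : X.Opens} {M : X.Modules} (h : IsInvOn W M) :
    ∃ (κ : Type u) (Y : κ → X.Opens) (_ : ∀ a, Y a ≤ W),
      W ≤ iSup Y ∧ ∀ a, Nonempty (IsoOn (Y a) M (unitMod X)) := by
  choose V hxV hVW he using h
  exact ⟨{x : X // x ∈ W}, fun p => V p.1 p.2, fun p => hVW p.1 p.2,
    fun x hx => Opens.mem_iSup.mpr ⟨⟨x, hx⟩, hxV x hx⟩, fun p => he p.1 p.2⟩

/-- A function as a section of the unit module. -/
def toSec {V : X.Opens} (a : Γ(X, V)) : Γ(unitMod X, V) := a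

theorem toSec_eq_smul {V Z : X.Opens} (h : Z ≤ V) (a : Γ(X, Z)) :
    toSec a = a • res (unitMod X) h (toSec (1 : Γ(X, V))) := by
  change a = a * resR h 1
  rw [map_one, mul_one]

namespace IsoOn

variable {V : X.Opens} {M : X.Modules} (e : IsoOn V M (unitMod X))

/-- The generator given by a trivialisation. -/
def gen : Γ(M, V) := e.inv.app V le_rfl (toSec (1 : Γ(X, V)))

/-- The coefficient of a section with respect to the generator. -/
def coeff (Z : X.Opens) (h : Z ≤ V) (x : Γ(M, Z)) : Γ(X, Z) := e.hom.app Z h x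

theorem inv_app_eq (Z : X.Opens) (h : Z ≤ V) (a : Γ(X, Z)) :
    e.inv.app Z h (toSec a) = a • res M h e.gen := by
  rw [gen, ← e.inv.map_res V Z le_rfl h, ← e.inv.map_smul, ← toSec_eq_smul]

theorem eq_coeff_smul (Z : X.Opens) (h : Z ≤ V) (x : Γ(M, Z)) :
    x = e.coeff Z h x • res M h e.gen := by
  rw [← inv_app_eq]
  exact (e.hom_inv Z h x).symm

theorem coeff_smul_gen (Z : X.Opens) (h : Z ≤ V) (a : Γ(X, Z)) :
    e.coeff Z h (a • res M h e.gen) = a := by
  rw [← inv_app_eq]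
  exact e.inv_hom Z h a

end IsoOn

/-- Endomorphisms of an invertible module are scalars. -/
theorem exists_scalar {W : X.Opens} {P : X.Modules} (hP : IsInvOn W P) (α : HomOn W P P) :
    ∃ r : Γ(X, W), ∀ V (h : V ≤ W) (x : Γ(P, V)), α.app V h x = resR h r • x := by
  obtain ⟨κ, Y, hY, hcov, he⟩ := hP.exists_cover
  let e := fun a => (he a).some
  let r := fun a => (e a).coeff (Y a) le_rfl (α.app (Y a) (hY a) (e a).gen)
  have hr : ∀ a V (h : V ≤ Y a) (x : Γ(P, V)),
      α.app V (h.trans (hY a)) x = resR h (r a) • x := by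
    intro a V h x
    rw [(e a).eq_coeff_smul V h x, α.map_smul, α.map_res (Y a) V (hY a) h,
      (e a).eq_coeff_smul (Y a) le_rfl (α.app (Y a) (hY a) (e a).gen), res_self, res_smul,
      smul_smul, smul_smul, mul_comm]
  obtain ⟨R, hR⟩ := existsR_glue Y hY hcov r fun a b Z ha hb => by
    have h1 := ((hr a Z ha (res P ha (e a).gen)).symm.trans (hr b Z hb (res P ha (e a).gen)))
    have h2 := congrArg ((e a).coeff Z ha) h1
    rwa [(e a).coeff_smul_gen, (e a).coeff_smul_gen] at h2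
  refine ⟨R, fun V h x => ?_⟩
  refine ext_local P (fun a => V ⊓ Y a) (fun a => inf_le_left)
    (iSup_inf_cover Y (h.trans hcov)) fun a => ?_
  rw [← α.map_res, hr a _ inf_le_right, res_smul, ← hR a, resR_resR, resR_resR]

variable {T : Scheme.{u}} (s : T ⟶ X)

/-- The direct image of the structure sheaf of `T`. -/
abbrev pushUnit : X.Modules := (Scheme.Modules.pushforward s).obj (unitMod T)

theorem preimage_mono' {V V' : X.Opens} (h : V' ≤ V) : s ⁻¹ᵁ V' ≤ s ⁻¹ᵁ V := fun _ ht => h ht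

/-- The map on functions. -/
def appR (V : X.Opens) : Γ(X, V) →+* Γ(T, s ⁻¹ᵁ V) := (s.app V).hom

theorem appR_resR {V V' : X.Opens} (h : V' ≤ V) (r : Γ(X, V)) :
    appR s V' (resR h r) = resR (preimage_mono' s h) (appR s V r) :=
  ConcreteCategory.congr_hom (s.naturality (homOfLE h).op) r

variable {s}

/-- The value of a morphism to `s_* O_T`. -/
def HomOn.val {W : X.Opens} {P : X.Modules} (ρ : HomOn W P (pushUnit s)) (V : X.Opens)
    (h : V ≤ W) : Γ(P, V) →+ Γ(T, s ⁻¹ᵁ V) :=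
  ρ.app V h

theorem HomOn.val_smul {W : X.Opens} {P : X.Modules} (ρ : HomOn W P (pushUnit s)) (V : X.Opens)
    (h : V ≤ W) (r : Γ(X, V)) (x : Γ(P, V)) :
    ρ.val V h (r • x) = appR s V r * ρ.val V h x :=
  ρ.map_smul V h r x

theorem HomOn.val_res {W : X.Opens} {P : X.Modules} (ρ : HomOn W P (pushUnit s))
    {V V' : X.Opens} (hV : V ≤ W) (h : V' ≤ V) (x : Γ(P, V)) :
    ρ.val V' (h.trans hV) (res P h x) = resR (preimage_mono' s h) (ρ.val V hV x) :=
  ρ.map_res V V' hV h x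

/-- A morphism to `s_* O_T` is a rigidification if it is nowhere zero along `s`. -/
def IsRig {W : X.Opens} {P : X.Modules} (ρ : HomOn W P (pushUnit s)) : Prop :=
  ∀ t : T, s t ∈ W → ∃ (Y : X.Opens) (hY : Y ≤ W) (x : Γ(P, Y)),
    s t ∈ Y ∧ IsUnit (ρ.val Y hY x)

theorem IsRig.isUnit_val_gen {W : X.Opens} {P : X.Modules} {ρ : HomOn W P (pushUnit s)}
    (hρ : IsRig ρ) {V : X.Opens} (hV : V ≤ W) (e : IsoOn V P (unitMod X)) :
    IsUnit (ρ.val V hV e.gen) := by
  have hex : ∀ t : (s ⁻¹ᵁ V : T.Opens), ∃ (Z : T.Opens) (hZ : Z ≤ s ⁻¹ᵁ V),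
      t.1 ∈ Z ∧ IsUnit (resR hZ (ρ.val V hV e.gen)) := by
    intro t
    obtain ⟨Y, hY, x, htY, hx⟩ := hρ t.1 (hV t.2)
    refine ⟨s ⁻¹ᵁ (Y ⊓ V), preimage_mono' s inf_le_right, ⟨htY, t.2⟩, ?_⟩
    have h1 := hx.map (resR (preimage_mono' s (inf_le_left : Y ⊓ V ≤ Y)))
    rw [← ρ.val_res hY inf_le_left, e.eq_coeff_smul (Y ⊓ V) inf_le_right (res P inf_le_left x),
      ρ.val_smul, ρ.val_res hV inf_le_right] at h1
    exact isUnit_of_mul_isUnit_right h1
  choose Z hZ htZ hu using hex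
  exact isUnit_of_local Z hZ (fun t ht => Opens.mem_iSup.mpr ⟨⟨t, ht⟩, htZ ⟨t, ht⟩⟩) hu

/-- An isomorphism of rigidified invertible modules can be normalised. -/
theorem exists_normalised {W : X.Opens} {P Q : X.Modules}
    (hW : Function.Bijective (appR s W)) (hP : IsInvOn W P)
    {ρ : HomOn W P (pushUnit s)} (hρ : IsRig ρ) {σ : HomOn W Q (pushUnit s)} (hσ : IsRig σ)
    (φ : IsoOn W P Q) :
    ∃ φ' : IsoOn W P Q, ∀ V (h : V ≤ W) (x : Γ(P, V)),
      σ.val V h (φ'.hom.app V h x) = ρ.val V h x := by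
  obtain ⟨κ, Y, hY, hcov, he⟩ := hP.exists_cover
  let e := fun a => (he a).some
  have hf : ∀ a, IsUnit (ρ.val (Y a) (hY a) (e a).gen) := fun a =>
    hρ.isUnit_val_gen (hY a) (e a)
  let u : ∀ a, Γ(T, s ⁻¹ᵁ Y a) := fun a =>
    σ.val (Y a) (hY a) (φ.hom.app (Y a) (hY a) (e a).gen) * ((hf a).unit⁻¹ : Γ(T, s ⁻¹ᵁ Y a)ˣ).1
  have hu : ∀ a V (h : V ≤ Y a) (x : Γ(P, V)),
      σ.val V (h.trans (hY a)) (φ.hom.app V (h.trans (hY a)) x) =
        resR (preimage_mono' s h) (u a) * ρ.val V (h.trans (hY a)) x := by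
    intro a V h x
    rw [(e a).eq_coeff_smul V h x, φ.hom.map_smul, σ.val_smul, ρ.val_smul,
      φ.hom.map_res (Y a) V (hY a) h, σ.val_res (hY a) h, ρ.val_res (hY a) h, map_mul]
    have h1 : resR (preimage_mono' s h) ((hf a).unit⁻¹ : Γ(T, s ⁻¹ᵁ Y a)ˣ).1 *
        resR (preimage_mono' s h) (ρ.val (Y a) (hY a) (e a).gen) = 1 := by
      rw [← map_mul, IsUnit.val_inv_mul, map_one]
    linear_combination (-(appR s V ((e a).coeff V h x)) *
      resR (preimage_mono' s h) (σ.val (Y a) (hY a) (φ.hom.app (Y a) (hY a) (e a).gen))) * h1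
  obtain ⟨U, hU⟩ := existsR_glue (fun a => s ⁻¹ᵁ Y a) (fun a => preimage_mono' s (hY a))
    (fun t ht => by
      obtain ⟨a, ha⟩ := Opens.mem_iSup.mp (hcov (show s t ∈ W from ht))
      exact Opens.mem_iSup.mpr ⟨a, ha⟩) u fun a b Z ha hb => by
    have hle : Z ≤ s ⁻¹ᵁ (Y a ⊓ Y b) := fun t ht => ⟨ha ht, hb ht⟩
    have h1 := ((hu a (Y a ⊓ Y b) inf_le_left (res P inf_le_left (e a).gen)).symm.trans
      (hu b (Y a ⊓ Y b) inf_le_right (res P inf_le_left (e a).gen)))
    rw [ρ.val_res (hY a)] at h1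
    have h2 := congrArg (resR hle)
      (((hf a).map (resR (preimage_mono' s inf_le_left))).mul_right_cancel h1)
    rwa [resR_resR, resR_resR] at h2
  have hUall : ∀ V (h : V ≤ W) (x : Γ(P, V)), σ.val V h (φ.hom.app V h x) =
      resR (preimage_mono' s h) U * ρ.val V h x := by
    intro V h x
    refine extR_local (fun a => s ⁻¹ᵁ (V ⊓ Y a)) (fun a => preimage_mono' s inf_le_left)
      (fun t ht => by
        obtain ⟨a, ha⟩ := Opens.mem_iSup.mp (hcov (h (show s t ∈ V from ht)))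
        exact Opens.mem_iSup.mpr ⟨a, ht, ha⟩) fun a => ?_
    rw [map_mul, ← σ.val_res h inf_le_left, ← ρ.val_res h inf_le_left, ← φ.hom.map_res,
      hu a _ inf_le_right, ← hU a, resR_resR, resR_resR]
  have hUunit : IsUnit U := by
    refine isUnit_of_local (fun a => s ⁻¹ᵁ Y a) (fun a => preimage_mono' s (hY a))
      (fun t ht => by
        obtain ⟨a, ha⟩ := Opens.mem_iSup.mp (hcov (show s t ∈ W from ht))
        exact Opens.mem_iSup.mpr ⟨a, ha⟩) fun a => ?_
    rw [hU a]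
    exact (hσ.isUnit_val_gen (hY a) ((φ.mono (hY a)).symm.trans (e a))).mul (Units.isUnit _)
  obtain ⟨r, hr⟩ := hW.2 ((hUunit.unit⁻¹ : Γ(T, s ⁻¹ᵁ W)ˣ).1)
  obtain ⟨r', hr'⟩ := hW.2 U
  have hrr : r * r' = 1 := hW.1 (by rw [map_mul, hr, hr', IsUnit.val_inv_mul, map_one])
  refine ⟨{
    hom :=
      { app := fun V h => AddMonoidHom.mk' (fun x => resR h r • φ.hom.app V h x)
          fun x y => by rw [map_add, smul_add]
        map_smul := fun V h a x => by
          change resR h r • φ.hom.app V h (a • x) = a • resR h r • φ.hom.app V h x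
          rw [φ.hom.map_smul, smul_comm]
        map_res := fun V Z hV hZ x => by
          change resR (hZ.trans hV) r • φ.hom.app Z (hZ.trans hV) (res P hZ x) =
            res Q hZ (resR hV r • φ.hom.app V hV x)
          rw [res_smul, resR_resR, φ.hom.map_res] }
    inv :=
      { app := fun V h => AddMonoidHom.mk' (fun y => resR h r' • φ.inv.app V h y)
          fun x y => by rw [map_add, smul_add]
        map_smul := fun V h a x => by
          change resR h r' • φ.inv.app V h (a • x) = a • resR h r' • φ.inv.app V h x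
          rw [φ.inv.map_smul, smul_comm]
        map_res := fun V Z hV hZ x => by
          change resR (hZ.trans hV) r' • φ.inv.app Z (hZ.trans hV) (res Q hZ x) =
            res P hZ (resR hV r' • φ.inv.app V hV x)
          rw [res_smul, resR_resR, φ.inv.map_res] }
    hom_inv := fun V h x => by
      change resR h r' • φ.inv.app V h (resR h r • φ.hom.app V h x) = x
      rw [φ.inv.map_smul, φ.hom_inv, smul_smul, ← map_mul, mul_comm, hrr, map_one, one_smul]
    inv_hom := fun V h x => by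
      change resR h r • φ.hom.app V h (resR h r' • φ.inv.app V h x) = x
      rw [φ.hom.map_smul, φ.inv_hom, smul_smul, ← map_mul, hrr, map_one, one_smul] }, ?_⟩
  intro V h x
  change σ.val V h (resR h r • φ.hom.app V h x) = ρ.val V h x
  rw [σ.val_smul, hUall, appR_resR, hr, ← mul_assoc, ← map_mul, IsUnit.val_inv_mul, map_one,
    one_mul]

/-- Isomorphisms of rigidified invertible modules are unique. -/
theorem normalised_unique {W : X.Opens} {P Q : X.Modules}
    (hW : Function.Bijective (appR s W)) (hP : IsInvOn W P)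
    {ρ : HomOn W P (pushUnit s)} (hρ : IsRig ρ) {σ : HomOn W Q (pushUnit s)}
    (φ ψ : IsoOn W P Q)
    (hφ : ∀ V (h : V ≤ W) (x : Γ(P, V)), σ.val V h (φ.hom.app V h x) = ρ.val V h x)
    (hψ : ∀ V (h : V ≤ W) (x : Γ(P, V)), σ.val V h (ψ.hom.app V h x) = ρ.val V h x)
    (V : X.Opens) (h : V ≤ W) (x : Γ(P, V)) : φ.hom.app V h x = ψ.hom.app V h x := by
  obtain ⟨r, hr⟩ := exists_scalar hP (φ.hom.comp ψ.inv)
  obtain ⟨κ, Y, hY, hcov, he⟩ := hP.exists_cover
  have hfix : ∀ V (h : V ≤ W) (x : Γ(P, V)), ρ.val V h (resR h r • x) = ρ.val V h x := by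
    intro V h x
    rw [← hr, HomOn.comp_app, ← hψ, ψ.inv_hom, hφ]
  have hr1 : appR s W r = 1 := by
    refine extR_local (fun a => s ⁻¹ᵁ Y a) (fun a => preimage_mono' s (hY a))
      (fun t ht => by
        obtain ⟨a, ha⟩ := Opens.mem_iSup.mp (hcov (show s t ∈ W from ht))
        exact Opens.mem_iSup.mpr ⟨a, ha⟩) fun a => ?_
    have h1 := hfix (Y a) (hY a) (he a).some.gen
    rw [ρ.val_smul] at h1
    rw [map_one, ← appR_resR]
    exact (hρ.isUnit_val_gen (hY a) (he a).some).mul_right_cancel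
      (h1.trans (one_mul _).symm)
    exact hY a
  have hr2 : r = 1 := hW.1 (by rw [hr1, map_one])
  have h3 := hr V h x
  rw [hr2, map_one, one_smul, HomOn.comp_app] at h3
  rw [← ψ.inv_hom V h (φ.hom.app V h x), h3]

end Fermat.Agent.Row24.Glue
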