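import Fermat.Agent.Row24.Glue.Affine
import Fermat.Agent.Row24.Glue.Objects

/-!
# Invertible modules on a scheme with two affine charts

Invertible modules on a scheme covered by two affine opens meeting in a basic open of both:
they are the same as modules on the three affines with localisation maps.
-/

set_option autoImplicit false

universe u

open CategoryTheory AlgebraicGeometry TopologicalSpace Opposite

noncomputable section

namespace Fermat.Agent.Row24.Glue

variable {X : Scheme.{u}}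

theorem res_bijective_of_eq (M : X.Modules) {A B : X.Opens} (h : B ≤ A) (e : A = B) :
    Function.Bijective (res M h) := by
  subst e
  exact ⟨fun x y hxy => by simpa using hxy, fun x => ⟨x, res_self M h x⟩⟩

theorem isUnit_resR_basicOpen {U : X.Opens} (g : Γ(X, U)) {V : X.Opens} (hV : V = X.basicOpen g)
    (h : V ≤ U) : IsUnit (resR h g) := by
  subst hV
  exact RingedSpace.isUnit_res_basicOpen X.toRingedSpace g

/-- A module whose restriction along an open immersion is invertible is invertible on the range. -/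
theorem isInvOn_opensRange_of_restrict {Y : Scheme.{u}} (f : Y ⟶ X) [IsOpenImmersion f]
    {M : X.Modules} (h : Scheme.Modules.IsInvertible (M.restrict f)) :
    IsInvOn f.opensRange M := by
  rintro _ ⟨y, rfl⟩
  obtain ⟨V, hyV, ⟨e⟩⟩ := h.exists_trivialization y
  refine ⟨f ''ᵁ V, ⟨y, hyV, rfl⟩, f.image_le_opensRange V, ⟨IsoOn.ofRestrict (V.ι ≫ f)
    ((Scheme.Modules.restrictFunctorComp V.ι f).app M ≪≫
      (Scheme.Modules.restrictFunctorIsoPullback V.ι).app _ ≪≫ e ≪≫
      (Scheme.Modules.restrictUnitIso (V.ι ≫ f)).symm) ?_⟩⟩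
  rw [Scheme.Hom.opensRange_comp, Scheme.Opens.opensRange_ι]

section Piece

variable {U : X.Opens} (hU : IsAffineOpen U) (N : ModuleCat.{u} Γ(X, U))

/-- The direct image of the sheaf of an affine module. -/
def piece : X.Modules := (Scheme.Modules.pushforward hU.fromSpec).obj (tilde N)

/-- The sheaf of an affine module on the affine open. -/
def pieceRestrictIso : (piece hU N).restrict hU.fromSpec ≅ tilde N :=
  (asIso (Scheme.Modules.restrictAdjunction hU.fromSpec).counit).app (tilde N)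

/-- Sections of the piece over the affine open. -/
def pieceEquiv : Γ(piece hU N, U) ≃ₗ[Γ(X, U)] N :=
  (gammaRestrictEquiv hU (piece hU N)).symm ≪≫ₗ
    ((moduleSpecΓFunctor (R := Γ(X, U))).mapIso (pieceRestrictIso hU N) ≪≫
      ((tilde.toTildeΓNatIso (R := Γ(X, U))).app N).symm).toLinearEquiv

theorem isInvOn_piece [Module.Invertible Γ(X, U) N] : IsInvOn U (piece hU N) :=
  IsInvOn.mono (isInvOn_opensRange_of_restrict hU.fromSpec
    (isInvertible_of_iso (pieceRestrictIso hU N).symm (isInvertible_tilde N)))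
    hU.opensRange_fromSpec.ge

theorem res_piece_bijective {V : X.Opens} (h : U ≤ V) :
    Function.Bijective (res (piece hU N) h) := by
  change Function.Bijective (res (tilde N) (preimage_mono' hU.fromSpec h))
  refine res_bijective_of_eq _ _ (le_antisymm ?_ (preimage_mono' hU.fromSpec h))
  rw [hU.fromSpec_preimage_self]
  exact le_top

end Piece

section Extend

variable {U : X.Opens} (hU : IsAffineOpen U) {L F : X.Modules}

include hU in
/-- Linear bijections of sections give isomorphisms over an affine open. -/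
theorem exists_isoOn_extends (hL : IsInvOn U L) (hF : IsInvOn U F)
    (e : Γ(L, U) ≃ₗ[Γ(X, U)] Γ(F, U)) :
    ∃ φ : IsoOn U L F, ∀ x, φ.hom.app U le_rfl x = e x := by
  obtain ⟨a, ha⟩ := exists_homOn_extends hU hL e.toLinearMap
  obtain ⟨b, hb⟩ := exists_homOn_extends hU hF e.symm.toLinearMap
  have h1 : a.comp b = HomOn.id U L := homOn_ext hU hL fun x => by
    rw [HomOn.comp_app, ha, hb]
    exact e.symm_apply_apply x
  have h2 : b.comp a = HomOn.id U F := homOn_ext hU hF fun x => by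
    rw [HomOn.comp_app, hb, ha]
    exact e.apply_symm_apply x
  exact ⟨⟨a, b, fun V hV x => congrArg (fun f : HomOn U L L => f.app V hV x) h1,
    fun V hV x => congrArg (fun f : HomOn U F F => f.app V hV x) h2⟩, ha⟩

include hU in
/-- A morphism is known on a basic open once it is known on the image of the affine open. -/
theorem app_eq_of_fractions (hL : IsInvOn U L) (g : Γ(X, U)) {V : X.Opens}
    (hg : V = X.basicOpen g) (hV : V ≤ U) (φ : HomOn U L F) (e : Γ(L, V) →ₗ[Γ(X, V)] Γ(F, V))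
    (h : ∀ x, res F hV (φ.app U le_rfl x) = e (res L hV x)) (x : Γ(L, V)) :
    φ.app V hV x = e x := by
  subst hg
  obtain ⟨n, t, ht⟩ := exists_pow_smul_res hU hL g x
  have h1 := h t
  rw [← φ.map_res U _ le_rfl hV, ht, φ.map_smul, map_smul] at h1
  have hu : IsUnit (resR hV (g ^ n)) := by
    rw [map_pow]
    exact (isUnit_resR_basicOpen g rfl hV).pow n
  exact hu.smul_left_cancel.mp h1

end Extend

section TwoAffine

variable {U1 U2 U12 : X.Opens} (h1 : IsAffineOpen U1) (h2 : IsAffineOpen U2)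
  (h12 : IsAffineOpen U12) (hle1 : U12 ≤ U1) (hle2 : U12 ≤ U2)
  (hinf : U1 ⊓ U2 ≤ U12) (hsup : U1 ⊔ U2 = ⊤)
  (g1 : Γ(X, U1)) (g2 : Γ(X, U2)) (hg1 : U12 = X.basicOpen g1) (hg2 : U12 = X.basicOpen g2)

/-- The cover by the two opens. -/
def twoCover (U1 U2 : X.Opens) : ULift.{u} Bool → X.Opens :=
  fun i => bif i.down then U1 else U2

theorem twoCover_iSup (hsup : U1 ⊔ U2 = ⊤) : (⊤ : X.Opens) ≤ iSup (twoCover U1 U2) := by
  rw [← hsup]
  exact sup_le (le_iSup (twoCover U1 U2) ⟨true⟩) (le_iSup (twoCover U1 U2) ⟨false⟩)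

include h1 h2 h12 hinf hsup hg1 hg2 in
/-- Modules invertible and isomorphic on the three affines compatibly are isomorphic. -/
theorem nonempty_iso_of_two_affines {L L' : X.Modules}
    (hL : Scheme.Modules.IsInvertible L) (hL' : Scheme.Modules.IsInvertible L')
    (e1 : Γ(L, U1) ≃ₗ[Γ(X, U1)] Γ(L', U1)) (e2 : Γ(L, U2) ≃ₗ[Γ(X, U2)] Γ(L', U2))
    (e12 : Γ(L, U12) →ₗ[Γ(X, U12)] Γ(L', U12))
    (c1 : ∀ x, res L' hle1 (e1 x) = e12 (res L hle1 x))
    (c2 : ∀ x, res L' hle2 (e2 x) = e12 (res L hle2 x)) :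
    Nonempty (L ≅ L') := by
  have hI := fun U => isInvOn_of_isInvertible hL U
  have hI' := fun U => isInvOn_of_isInvertible hL' U
  obtain ⟨φ1, hφ1⟩ := exists_isoOn_extends h1 (hI U1) (hI' U1) e1
  obtain ⟨φ2, hφ2⟩ := exists_isoOn_extends h2 (hI U2) (hI' U2) e2
  have heq : φ1.hom.mono hle1 = φ2.hom.mono hle2 := homOn_ext h12 (hI U12) fun x => by
    rw [HomOn.mono_app, HomOn.mono_app,
      app_eq_of_fractions h1 (hI U1) g1 hg1 hle1 φ1.hom e12 (fun y => by rw [hφ1]; exact c1 y) x,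
      app_eq_of_fractions h2 (hI U2) g2 hg2 hle2 φ2.hom e12 (fun y => by rw [hφ2]; exact c2 y) x]
  have hagree : ∀ (V : X.Opens) (ha : V ≤ U1) (hb : V ≤ U2) (x : Γ(L, V)),
      φ1.hom.app V ha x = φ2.hom.app V hb x := fun V ha hb x =>
    congrArg (fun f : HomOn U12 L L' => f.app V ((le_inf ha hb).trans hinf) x) heq
  obtain ⟨F⟩ := IsoOn.exists_glue (U := ⊤) (twoCover U1 U2) (twoCover_iSup hsup)
    (fun i => match i with
      | ⟨true⟩ => φ1
      | ⟨false⟩ => φ2) fun a b V ha hb x => by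
    obtain ⟨_ | _⟩ := a <;> obtain ⟨_ | _⟩ := b
    exacts [rfl, (hagree V hb ha x).symm, hagree V ha hb x, rfl]
  exact ⟨F.toIso⟩

/-- The map to the piece on the intersection, on sections over the affine open. -/
theorem exists_to_piece {U : X.Opens} (hle : U12 ≤ U) (N : ModuleCat.{u} Γ(X, U))
    (hU : IsAffineOpen U) (N12 : ModuleCat.{u} Γ(X, U12)) (ρ : N →+ N12)
    (hρ : ∀ r n, ρ (r • n) = resR hle r • ρ n) [Module.Invertible Γ(X, U) N]
    [Module.Invertible Γ(X, U12) N12] (g : Γ(X, U)) (hg : U12 = X.basicOpen g)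
    (hsurj : ∀ y, ∃ (n : ℕ) (t : N), ρ t = resR hle (g ^ n) • y)
    (hinj : ∀ t, ρ t = 0 → ∃ n : ℕ, g ^ n • t = 0) :
    ∃ b : IsoOn U12 (piece hU N) (piece h12 N12), ∀ x : Γ(piece hU N, U),
      pieceEquiv h12 N12 (b.hom.app U12 le_rfl (res _ hle x)) = ρ (pieceEquiv hU N x) := by
  have hbij := res_piece_bijective h12 N12 hle
  let ι := Equiv.ofBijective _ hbij
  have hι : ∀ y, res (piece h12 N12) hle (ι.symm y) = y := ι.apply_symm_apply
  let f : Γ(piece hU N, U) →ₗ[Γ(X, U)] Γ(piece h12 N12, U) :=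
    { toFun := fun x => ι.symm ((pieceEquiv h12 N12).symm (ρ (pieceEquiv hU N x)))
      map_add' := fun x y => hbij.1 (by
        rw [map_add (res (piece h12 N12) hle), hι, hι, hι, map_add, map_add, map_add])
      map_smul' := fun r x => hbij.1 (by
        rw [RingHom.id_apply, res_smul, hι, hι, map_smul, hρ, map_smul]) }
  obtain ⟨a, ha⟩ := exists_homOn_extends hU (isInvOn_piece hU N) f
  have hcompat : ∀ x, a.app U12 hle (res _ hle x) =
      (pieceEquiv h12 N12).symm (ρ (pieceEquiv hU N x)) := fun x => by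
    rw [a.map_res U U12 le_rfl hle, ha]
    exact hι _
  subst hg
  have hu : ∀ n : ℕ, IsUnit (resR hle (g ^ n)) := fun n => by
    rw [map_pow]
    exact (isUnit_resR_basicOpen g rfl hle).pow n
  let φ : Γ(piece hU N, X.basicOpen g) →ₗ[Γ(X, X.basicOpen g)]
      Γ(piece h12 N12, X.basicOpen g) :=
    { toFun := a.app _ hle
      map_add' := map_add _
      map_smul' := a.map_smul _ hle }
  have hφ : Function.Bijective φ := by
    refine ⟨(injective_iff_map_eq_zero φ).2 fun x hx => ?_, fun y => ?_⟩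
    · obtain ⟨n, t, ht⟩ := exists_pow_smul_res hU (isInvOn_piece hU N) g x
      have h3 : φ (res _ hle t) = 0 := by rw [ht, map_smul, hx, smul_zero]
      have h4 : ρ (pieceEquiv hU N t) = 0 :=
        (pieceEquiv h12 N12).symm.injective (((hcompat t).symm.trans h3).trans (map_zero _).symm)
      obtain ⟨m, hm⟩ := hinj _ h4
      rw [← map_smul, LinearEquiv.map_eq_zero_iff] at hm
      have h5 := congrArg (res (piece hU N) hle) hm
      rw [res_smul, map_zero, (hu m).smul_eq_zero, ht, (hu n).smul_eq_zero] at h5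
      exact h5
    · obtain ⟨n, t, ht⟩ := hsurj (pieceEquiv h12 N12 y)
      refine ⟨((hu n).unit⁻¹ : Γ(X, X.basicOpen g)ˣ).1 • res _ hle ((pieceEquiv hU N).symm t), ?_⟩
      rw [map_smul]
      change _ • a.app _ hle (res _ hle ((pieceEquiv hU N).symm t)) = y
      rw [hcompat, LinearEquiv.apply_symm_apply, ht, map_smul, LinearEquiv.symm_apply_apply,
        smul_smul, IsUnit.val_inv_mul, one_smul]
  obtain ⟨b, hb⟩ := exists_isoOn_extends h12 ((isInvOn_piece hU N).mono hle)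
    (isInvOn_piece h12 N12) (LinearEquiv.ofBijective φ hφ)
  refine ⟨b, fun x => ?_⟩
  rw [hb]
  change pieceEquiv h12 N12 (a.app _ hle (res _ hle x)) = _
  rw [hcompat, LinearEquiv.apply_symm_apply]

include hle1 hle2 hinf hsup hg1 hg2 in
/-- Modules on the three affines with localisation maps glue to an invertible sheaf. -/
theorem exists_invertible_of_two_affines (N1 : ModuleCat.{u} Γ(X, U1))
    (N2 : ModuleCat.{u} Γ(X, U2)) (N12 : ModuleCat.{u} Γ(X, U12))
    [Module.Invertible Γ(X, U1) N1] [Module.Invertible Γ(X, U2) N2]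
    [Module.Invertible Γ(X, U12) N12]
    (h1 : IsAffineOpen U1) (h2 : IsAffineOpen U2) (h12 : IsAffineOpen U12)
    (ρ1 : N1 →+ N12) (hρ1 : ∀ r n, ρ1 (r • n) = resR hle1 r • ρ1 n)
    (hs1 : ∀ y, ∃ (n : ℕ) (t : N1), ρ1 t = resR hle1 (g1 ^ n) • y)
    (hi1 : ∀ t, ρ1 t = 0 → ∃ n : ℕ, g1 ^ n • t = 0)
    (ρ2 : N2 →+ N12) (hρ2 : ∀ r n, ρ2 (r • n) = resR hle2 r • ρ2 n)
    (hs2 : ∀ y, ∃ (n : ℕ) (t : N2), ρ2 t = resR hle2 (g2 ^ n) • y)
    (hi2 : ∀ t, ρ2 t = 0 → ∃ n : ℕ, g2 ^ n • t = 0) :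
    ∃ (L : X.Modules) (e1 : Γ(L, U1) ≃ₗ[Γ(X, U1)] N1) (e2 : Γ(L, U2) ≃ₗ[Γ(X, U2)] N2)
      (e12 : Γ(L, U12) ≃ₗ[Γ(X, U12)] N12),
      Scheme.Modules.IsInvertible L ∧ (∀ x, ρ1 (e1 x) = e12 (res L hle1 x)) ∧
        (∀ x, ρ2 (e2 x) = e12 (res L hle2 x)) := by
  obtain ⟨b1, hb1⟩ := exists_to_piece h12 hle1 N1 h1 N12 ρ1 hρ1 g1 hg1 hs1 hi1
  obtain ⟨b2, hb2⟩ := exists_to_piece h12 hle2 N2 h2 N12 ρ2 hρ2 g2 hg2 hs2 hi2
  have hinf' : U2 ⊓ U1 ≤ U12 := (le_of_eq (inf_comm U2 U1)).trans hinf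
  let D : Datum X :=
    { ι := ULift.{u} Bool
      W := twoCover U1 U2
      P := fun i => match i with
        | ⟨true⟩ => piece h1 N1
        | ⟨false⟩ => piece h2 N2
      φ := fun a b => match a, b with
        | ⟨true⟩, ⟨true⟩ => HomOn.id _ _
        | ⟨true⟩, ⟨false⟩ => (b1.mono hinf).hom.comp (b2.mono hinf).inv
        | ⟨false⟩, ⟨true⟩ => (b2.mono hinf').hom.comp (b1.mono hinf').inv
        | ⟨false⟩, ⟨false⟩ => HomOn.id _ _
      self := fun a V h x => by obtain ⟨_ | _⟩ := a <;> rfl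
      cocycle := fun a b d V ha hb hd x => by
        obtain ⟨_ | _⟩ := a <;> obtain ⟨_ | _⟩ := b <;> obtain ⟨_ | _⟩ := d <;> first
          | rfl
          | (change b1.inv.app V _ (b2.hom.app V _ (b2.inv.app V _ (b1.hom.app V _ x))) = x
             rw [b2.inv_hom, b1.hom_inv])
          | (change b2.inv.app V _ (b1.hom.app V _ (b1.inv.app V _ (b2.hom.app V _ x))) = x
             rw [b1.inv_hom, b2.hom_inv]) }
  let ψ1 : IsoOn U1 D.glued (piece h1 N1) := D.gluedIso ⟨true⟩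
  let ψ2 : IsoOn U2 D.glued (piece h2 N2) := D.gluedIso ⟨false⟩
  let secEquiv : ∀ {U : X.Opens} {M N : X.Modules}, IsoOn U M N →
      Γ(M, U) ≃ₗ[Γ(X, U)] Γ(N, U) := fun {U M N} e =>
    { toFun := e.hom.app U le_rfl
      map_add' := map_add _
      map_smul' := e.hom.map_smul U le_rfl
      invFun := e.inv.app U le_rfl
      left_inv := e.hom_inv U le_rfl
      right_inv := e.inv_hom U le_rfl }
  refine ⟨D.glued, secEquiv ψ1 ≪≫ₗ pieceEquiv h1 N1, secEquiv ψ2 ≪≫ₗ pieceEquiv h2 N2,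
    secEquiv ((ψ1.mono hle1).trans b1) ≪≫ₗ pieceEquiv h12 N12, ?_, fun x => ?_, fun x => ?_⟩
  · refine isInvertible_of_isInvOn fun y _ => ?_
    obtain hy | hy : y ∈ U1 ∨ y ∈ U2 := by
      have : y ∈ (U1 ⊔ U2 : X.Opens) := by rw [hsup]; trivial
      exact this
    · obtain ⟨V, hV, -, e⟩ := (isInvOn_piece h1 N1).of_isoOn ψ1 y hy
      exact ⟨V, hV, le_top, e⟩
    · obtain ⟨V, hV, -, e⟩ := (isInvOn_piece h2 N2).of_isoOn ψ2 y hy
      exact ⟨V, hV, le_top, e⟩
  · change ρ1 (pieceEquiv h1 N1 (ψ1.hom.app U1 le_rfl x)) =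
      pieceEquiv h12 N12 (b1.hom.app U12 le_rfl (ψ1.hom.app U12 hle1 (res _ hle1 x)))
    rw [ψ1.hom.map_res U1 U12 le_rfl hle1, hb1]
  · change ρ2 (pieceEquiv h2 N2 (ψ2.hom.app U2 le_rfl x)) =
      pieceEquiv h12 N12 (b1.hom.app U12 le_rfl (ψ1.hom.app U12 hle1 (res _ hle2 x)))
    have hc : b2.inv.app U12 le_rfl (b1.hom.app U12 le_rfl (ψ1.hom.app U12 hle1 (res _ hle2 x))) =
        ψ2.hom.app U12 hle2 (res _ hle2 x) :=
      D.proj_compat ⟨true⟩ ⟨false⟩ U12 hle1 hle2 (res _ hle2 x)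
    have hc' := congrArg (b2.hom.app U12 le_rfl) hc
    rw [b2.inv_hom, ψ2.hom.map_res U2 U12 le_rfl hle2] at hc'
    rw [hc', hb2]

end TwoAffine

end Fermat.Agent.Row24.Glue
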